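import Mathlib

/-!
# Two-dimensional representations which are reducible on an index two subgroup

If an irreducible representation has a stable line under a subgroup `G` of index `2`, then in a
suitable basis `G` acts diagonally and the complement antidiagonally.
-/

set_option autoImplicit false

namespace FLTAgent.RTIrr

open Matrix

variable {Γ : Type*} [Group Γ] {K : Type*} [Field K]

/-- `G` diagonal, complement antidiagonal. -/
def IsMonomial (r : Γ →* Matrix (Fin 2) (Fin 2) K) (G : Subgroup Γ) : Prop :=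
  ∀ g, (g ∈ G → r g 0 1 = 0 ∧ r g 1 0 = 0) ∧ (g ∉ G → r g 0 0 = 0 ∧ r g 1 1 = 0)

/-- A vector spanning a line stable under the whole group. -/
def HasStableLine (r : Γ →* Matrix (Fin 2) (Fin 2) K) (S : Set Γ) : Prop :=
  ∃ v : Fin 2 → K, v ≠ 0 ∧ ∀ g ∈ S, ∃ a : K, r g *ᵥ v = a • v

variable (r : Γ →* Matrix (Fin 2) (Fin 2) K) (G : Subgroup Γ)

/-- Conjugation of a representation. -/
def cjHom (P : (Matrix (Fin 2) (Fin 2) K)ˣ) : Γ →* Matrix (Fin 2) (Fin 2) K where
  toFun g := (↑P⁻¹ : Matrix (Fin 2) (Fin 2) K) * r g * P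
  map_one' := by simp
  map_mul' g h := by simp [mul_assoc]

theorem cjHom_apply (P : (Matrix (Fin 2) (Fin 2) K)ˣ) (g : Γ) :
    cjHom r P g = (↑P⁻¹ : Matrix (Fin 2) (Fin 2) K) * r g * P := rfl

theorem eq_of_cjHom (P : (Matrix (Fin 2) (Fin 2) K)ˣ) (g : Γ) :
    r g = P * cjHom r P g * (↑P⁻¹ : Matrix (Fin 2) (Fin 2) K) := by
  simp [cjHom_apply, mul_assoc]

theorem trace_cjHom (P : (Matrix (Fin 2) (Fin 2) K)ˣ) (g : Γ) :
    (cjHom r P g).trace = (r g).trace := Matrix.trace_units_conj' P (r g)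

theorem det_cjHom (P : (Matrix (Fin 2) (Fin 2) K)ˣ) (g : Γ) :
    (cjHom r P g).det = (r g).det := Matrix.det_units_conj' P (r g)

theorem exists_monomial (hG : G.index = 2) (hline : HasStableLine r (G : Set Γ))
    (hirr : ¬ HasStableLine r Set.univ) : ∃ P, IsMonomial (cjHom r P) G := by
  obtain ⟨v, hv, hst⟩ := hline
  obtain ⟨τ, hτ⟩ : ∃ τ, τ ∉ G := by
    by_contra h
    push Not at h
    rw [(Subgroup.eq_top_iff' G).mpr h, Subgroup.index_top] at hG
    omega
  set u := r τ *ᵥ v with hu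
  have hindep : LinearIndependent K ![v, u] := by
    refine LinearIndependent.pair_iff.mpr fun s t hst' => ?_
    by_cases ht : t = 0
    · rw [ht, zero_smul, add_zero, smul_eq_zero] at hst'
      exact ⟨hst'.resolve_right hv, ht⟩
    exfalso
    have hu' : r τ *ᵥ v = (-(t⁻¹ * s)) • v := by
      have := congrArg (fun w => t⁻¹ • w) hst'
      simp only [smul_add, smul_smul, inv_mul_cancel₀ ht, one_smul, smul_zero] at this
      rw [← hu, eq_neg_of_add_eq_zero_right this, neg_smul]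
    refine hirr ⟨v, hv, fun g _ => ?_⟩
    by_cases hg : g ∈ G
    · exact hst g hg
    obtain ⟨a, ha⟩ := hst (g * τ⁻¹) ((Subgroup.mul_mem_iff_of_index_two hG).mpr
      (by simp [hg, hτ]))
    refine ⟨-(t⁻¹ * s) * a, ?_⟩
    rw [show g = g * τ⁻¹ * τ by group, map_mul, ← Matrix.mulVec_mulVec, hu', Matrix.mulVec_smul, ha,
      smul_smul]
  let M : Matrix (Fin 2) (Fin 2) K := Matrix.of fun i j => ![v, u] j i
  have hM : IsUnit M := by
    rw [← Matrix.linearIndependent_cols_iff_isUnit]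
    exact hindep
  refine ⟨hM.unit, fun g => ?_⟩
  have hcol : ∀ (j : Fin 2) (a : K) (i : Fin 2), r g *ᵥ ![v, u] j = a • ![v, u] i →
      ∀ i', cjHom r hM.unit g i' j = if i' = i then a else 0 := by
    intro j a i h i'
    have h1 : (r g * M).col j = a • M.col i := by
      funext x
      rw [Matrix.col_apply, Matrix.mul_apply]
      exact congrFun h x
    have h2 : (cjHom r hM.unit g).col j = a • (1 : Matrix (Fin 2) (Fin 2) K).col i := by
      have e : cjHom r hM.unit g = (↑hM.unit⁻¹ : Matrix (Fin 2) (Fin 2) K) * (r g * M) := by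
        rw [cjHom_apply, IsUnit.unit_spec, mul_assoc]
      rw [e]
      funext x
      have h3 : ∀ y, (r g * M) y j = a * M y i := fun y => congrFun h1 y
      rw [Matrix.col_apply, Matrix.mul_apply, Pi.smul_apply, Matrix.col_apply, ← hM.val_inv_mul,
        Matrix.mul_apply, smul_eq_mul, Finset.mul_sum]
      refine Finset.sum_congr rfl fun y _ => ?_
      rw [h3]; ring
    have := congrFun h2 i'
    rw [Matrix.col_apply, Pi.smul_apply, Matrix.col_apply, Matrix.one_apply, smul_eq_mul] at this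
    rw [this]; split <;> simp
  have hmem : ∀ x y : Γ, x * y ∈ G ↔ (x ∈ G ↔ y ∈ G) := fun x y =>
    Subgroup.mul_mem_iff_of_index_two hG
  refine ⟨fun hg => ?_, fun hg => ?_⟩
  · obtain ⟨a, ha⟩ := hst g hg
    obtain ⟨b, hb⟩ := hst (τ⁻¹ * g * τ) (by simp [hmem, hg, hτ])
    have hb' : r g *ᵥ u = b • u := by
      rw [hu, Matrix.mulVec_mulVec, ← map_mul, show g * τ = τ * (τ⁻¹ * g * τ) by group, map_mul,
        ← Matrix.mulVec_mulVec, hb, Matrix.mulVec_smul]
    exact ⟨by simpa using hcol 1 b 1 hb' 0, by simpa using hcol 0 a 0 ha 1⟩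
  · obtain ⟨a, ha⟩ := hst (τ⁻¹ * g) (by simp [hmem, hg, hτ])
    obtain ⟨b, hb⟩ := hst (g * τ) (by simp [hmem, hg, hτ])
    have ha' : r g *ᵥ v = a • u := by
      rw [show g = τ * (τ⁻¹ * g) by group, map_mul, ← Matrix.mulVec_mulVec, ha, Matrix.mulVec_smul]
    have hb' : r g *ᵥ u = b • v := by
      rw [hu, Matrix.mulVec_mulVec, ← map_mul, hb]
    exact ⟨by simpa using hcol 0 a 1 ha' 0, by simpa using hcol 1 b 0 hb' 1⟩

namespace IsMonomial

variable {r G} (h : IsMonomial r G)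
include h

theorem trace_eq_zero {g : Γ} (hg : g ∉ G) : (r g).trace = 0 := by
  rw [Matrix.trace_fin_two, ((h g).2 hg).1, ((h g).2 hg).2, add_zero]

theorem eq_one_of_unipotent (h2 : (2 : K) ≠ 0) {g : Γ} (ht : (r g).trace = 2)
    (hd : (r g).det = 1) : g ∈ G ∧ r g = 1 := by
  have hg : g ∈ G := by
    by_contra hg
    exact h2 (ht ▸ h.trace_eq_zero hg)
  obtain ⟨h01, h10⟩ := (h g).1 hg
  rw [Matrix.trace_fin_two] at ht
  rw [Matrix.det_fin_two, h01, zero_mul, sub_zero] at hd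
  have ha : r g 0 0 = 1 := by
    have : (r g 0 0 - 1) * (r g 0 0 - 1) = 0 := by linear_combination (r g 0 0) * ht - hd
    exact sub_eq_zero.mp (mul_self_eq_zero.mp this)
  refine ⟨hg, ?_⟩
  ext i j
  fin_cases i <;> fin_cases j
  · simpa using ha
  · simpa using h01
  · simpa using h10
  · show r g 1 1 = (1 : Matrix (Fin 2) (Fin 2) K) 1 1
    rw [Matrix.one_apply_eq]
    linear_combination ht - ha

theorem scalar_of_commute {s g : Γ} (hs : s ∉ G) (hg : g ∈ G) (hc : r s * r g = r g * r s) :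
    r g = r g 0 0 • (1 : Matrix (Fin 2) (Fin 2) K) := by
  obtain ⟨h01, h10⟩ := (h g).1 hg
  obtain ⟨s00, s11⟩ := (h s).2 hs
  have e := congrFun (congrFun hc 0) 1
  simp [Matrix.mul_apply, Fin.sum_univ_two, h01, s00] at e
  have hs01 : r s 0 1 ≠ 0 := fun h0 => by
    have := congrArg Matrix.det (show r s * r s⁻¹ = 1 by rw [← map_mul, mul_inv_cancel, map_one])
    rw [Matrix.det_mul, Matrix.det_fin_two, h0, s00] at this
    simp at this
  have h11 : r g 1 1 = r g 0 0 := by
    have : r s 0 1 * (r g 1 1 - r g 0 0) = 0 := by linear_combination e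
    exact sub_eq_zero.mp ((mul_eq_zero.mp this).resolve_left hs01)
  ext i j
  fin_cases i <;> fin_cases j <;> simp [h01, h10, h11]

theorem exists_pow_eq_one_of_coprime (hG : G.index = 2) {p : ℕ} [hp : Fact p.Prime] [CharP K p]
    (hp2 : p ≠ 2) {g : Γ} (hfin : ∃ N, 0 < N ∧ r g ^ N = 1) :
    ∃ m, m.Coprime p ∧ r g ^ m = 1 := by
  have hdiag : ∀ g ∈ G, (∃ N, 0 < N ∧ r g ^ N = 1) → ∃ m, m.Coprime p ∧ r g ^ m = 1 := by
    intro g hg ⟨N, hN, hgN⟩
    obtain ⟨a, m, hpm, rfl⟩ := Nat.exists_eq_pow_mul_and_not_dvd hN.ne' p hp.out.ne_one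
    refine ⟨m, (Nat.coprime_comm.mp ((Nat.Prime.coprime_iff_not_dvd hp.out).mpr hpm)), ?_⟩
    have hd : r g = Matrix.diagonal fun i => r g i i := by
      ext i j
      fin_cases i <;> fin_cases j <;> simp [((h g).1 hg).1, ((h g).1 hg).2]
    rw [hd, Matrix.diagonal_pow, ← Matrix.diagonal_one]
    rw [hd, Matrix.diagonal_pow, ← Matrix.diagonal_one, Matrix.diagonal_eq_diagonal_iff] at hgN
    refine Matrix.diagonal_eq_diagonal_iff.mpr fun i => sub_eq_zero.mp ?_
    have h0 : ((r g i i) ^ m - 1) ^ p ^ a = 0 := by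
      rw [sub_pow_char_pow, ← pow_mul, mul_comm, one_pow, sub_eq_zero]
      exact hgN i
    rw [Pi.pow_apply]
    exact pow_eq_zero_iff (pow_ne_zero _ hp.out.ne_zero) |>.mp h0
  obtain ⟨N, hN, hgN⟩ := hfin
  obtain ⟨m, hm, hmg⟩ := hdiag (g * g) (Subgroup.mul_self_mem_of_index_two hG g)
    ⟨N, hN, by rw [map_mul, ← pow_two, ← pow_mul, mul_comm, pow_mul, hgN, one_pow]⟩
  refine ⟨2 * m, ?_, by rw [pow_mul, pow_two, ← map_mul, hmg]⟩
  exact Nat.Coprime.mul_left ((Nat.coprime_primes Nat.prime_two hp.out).mpr (Ne.symm hp2)) hm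

end IsMonomial

end FLTAgent.RTIrr
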