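import Fermat.Agent.Reduction.Peu.InertiaField
import Fermat.Agent.Reduction.Inertia
import Fermat.Agent.Char.InertiaLift
import Fermat.Agent.GalRep.Cyclo
import Mathlib.NumberTheory.Cyclotomic.Basic
import Mathlib.FieldTheory.Galois.Infinite

/-!
# Index two subgroups containing inertia away from an odd prime
-/

set_option autoImplicit false

open scoped Pointwise

namespace FLTAgent.RTIrr

open FLTAgent.Reduction

local notation "Qb" => AlgebraicClosure ℚ
local notation "GQ" => AlgebraicClosure ℚ ≃ₐ[ℚ] AlgebraicClosure ℚ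

private theorem qb_galois : IsGalois ℚ Qb := by
  have : Algebra.IsAlgebraic ℚ Qb := AlgebraicClosure.isAlgebraic ℚ
  have : IsAlgClosure ℚ Qb := ⟨inferInstance, inferInstance⟩
  have : Normal ℚ Qb := IsAlgClosure.normal ℚ Qb
  exact ⟨⟩

/-- Some inertia element at `2` moves the square roots of `-1`. -/
theorem exists_inertia_two_moves {A : ValuationSubring Qb} (hA : A.LiesOverPrime 2) {i : Qb}
    (hi : i ^ 2 = -1) : ∃ σ ∈ A.inertiaSubgroupIn ℚ, σ i ≠ i := by
  have := qb_galois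
  have : Algebra.IsAlgebraic ℚ Qb := AlgebraicClosure.isAlgebraic ℚ
  have hi0 : i ≠ 0 := by rintro rfl; norm_num at hi
  have hne : -i ≠ i := fun h => hi0 (by
    have : (2 : Qb) * i = 0 := by linear_combination -h
    exact (mul_eq_zero.mp this).resolve_left two_ne_zero)
  have hprim : IsPrimitiveRoot i 4 := by
    refine IsPrimitiveRoot.mk_of_lt i (by norm_num) (by linear_combination (i ^ 2 - 1) * hi) ?_
    intro l hl0 hl4 hl
    interval_cases l
    · rw [pow_one] at hl; rw [hl] at hi; norm_num at hi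
    · rw [hi] at hl; norm_num at hl
    · have : i = -1 := by linear_combination i * hi - hl
      rw [this] at hi; norm_num at hi
  let E : IntermediateField ℚ Qb := IntermediateField.adjoin ℚ {i}
  have : IsCyclotomicExtension {4} ℚ E := hprim.intermediateField_adjoin_isCyclotomicExtension ℚ
  have : FiniteDimensional ℚ E :=
    IntermediateField.adjoin.finiteDimensional (Algebra.IsAlgebraic.isAlgebraic i).isIntegral
  have : IsGalois ℚ E := IsCyclotomicExtension.isGalois {4} ℚ E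
  obtain ⟨g, hg⟩ : ∃ g : GQ, g i = -i := by
    by_contra hc
    push Not at hc
    have hfix : ∀ g : GQ, g i = i := fun g => by
      have h2 : (g i) ^ 2 = i ^ 2 := by rw [← map_pow, hi, map_neg, map_one]
      rcases sq_eq_sq_iff_eq_or_eq_neg.mp h2 with h | h
      · exact h
      · exact absurd h (hc g)
    obtain ⟨q, hq⟩ := (InfiniteGalois.mem_range_algebraMap_iff_fixed (k := ℚ) i).mpr hfix
    rw [← hq, ← map_pow, ← map_one (algebraMap ℚ Qb), ← map_neg] at hi
    have := (algebraMap ℚ Qb).injective hi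
    nlinarith [sq_nonneg q]
  have hspan : ∀ x ∈ E, ∃ a b : ℚ, x = (a : Qb) + (b : Qb) * i := by
    intro x hx
    have hx' : x ∈ (E.toSubalgebra : Subalgebra ℚ Qb) := hx
    rw [IntermediateField.adjoin_simple_toSubalgebra_of_isAlgebraic
      (Algebra.IsAlgebraic.isAlgebraic i), Algebra.adjoin_singleton_eq_range_aeval] at hx'
    obtain ⟨P, rfl⟩ := hx'
    simp only [RingHom.coe_coe, AlgHom.toRingHom_eq_coe]
    induction P using Polynomial.induction_on with
    | C r => exact ⟨r, 0, by simp⟩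
    | add P Q hP hQ =>
      obtain ⟨a, b, h⟩ := hP (IntermediateField.algebra_adjoin_le_adjoin ℚ {i}
        (Algebra.adjoin_singleton_eq_range_aeval ℚ i ▸ ⟨P, rfl⟩))
      obtain ⟨c, d, h'⟩ := hQ (IntermediateField.algebra_adjoin_le_adjoin ℚ {i}
        (Algebra.adjoin_singleton_eq_range_aeval ℚ i ▸ ⟨Q, rfl⟩))
      exact ⟨a + c, b + d, by rw [map_add, h, h']; push_cast; ring⟩
    | monomial n r h =>
      obtain ⟨a, b, h'⟩ := h (IntermediateField.algebra_adjoin_le_adjoin ℚ {i}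
        (Algebra.adjoin_singleton_eq_range_aeval ℚ i ▸ ⟨_, rfl⟩))
      refine ⟨-b, a, ?_⟩
      rw [pow_succ, ← mul_assoc, map_mul, h', Polynomial.aeval_X]
      push_cast
      linear_combination (b : Qb) * hi
  obtain ⟨σ, hσ, hσE⟩ := GalChar.exists_mem_inertiaSubgroupIn_eq_on A E g fun x hx hint => by
    obtain ⟨a, b, rfl⟩ := hspan x hx
    have hgx : g ((a : Qb) + (b : Qb) * i) = (a : Qb) - (b : Qb) * i := by
      rw [map_add, map_mul, map_ratCast, map_ratCast, hg]; ring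
    have hint' : IsIntegral ℤ ((a : Qb) - (b : Qb) * i) := hgx ▸ hint.map (g.toAlgHom.restrictScalars ℤ)
    have hrat : ∀ q : ℚ, IsIntegral ℤ (q : Qb) → ∃ m : ℤ, q = m := fun q hq => by
      rw [← eq_ratCast (algebraMap ℚ Qb) q,
        isIntegral_algebraMap_iff (algebraMap ℚ Qb).injective] at hq
      obtain ⟨m, hm⟩ := IsIntegrallyClosed.algebraMap_eq_of_integral hq
      exact ⟨m, hm.symm⟩
    obtain ⟨m, hm⟩ := hrat (2 * a) (by
      have e : ((2 * a : ℚ) : Qb) = ((a : Qb) + (b : Qb) * i) + ((a : Qb) - (b : Qb) * i) := by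
        push_cast; ring
      rw [e]; exact hint.add hint')
    obtain ⟨c, hc⟩ := hrat (a * a + b * b) (by
      have e : ((a * a + b * b : ℚ) : Qb) =
          ((a : Qb) + (b : Qb) * i) * ((a : Qb) - (b : Qb) * i) := by
        push_cast; linear_combination (b : Qb) ^ 2 * hi
      rw [e]; exact hint.mul hint')
    obtain ⟨d, hd⟩ := hrat (-(4 * b * b)) (by
      have e : ((-(4 * b * b) : ℚ) : Qb) = (((a : Qb) + (b : Qb) * i) - ((a : Qb) - (b : Qb) * i)) *
          (((a : Qb) + (b : Qb) * i) - ((a : Qb) - (b : Qb) * i)) := by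
        push_cast; linear_combination -4 * (b : Qb) ^ 2 * hi
      rw [e]; exact (hint.sub hint').mul (hint.sub hint'))
    obtain ⟨n, hn⟩ : ∃ n : ℤ, 2 * b = n := by
      have h : (2 * b) * (2 * b) = ((-d : ℤ) : ℚ) := by push_cast; linear_combination -hd
      refine ⟨(2 * b).num, (Rat.coe_int_num_of_den_eq_one ?_).symm⟩
      have h2 := congrArg Rat.den h
      rw [Rat.mul_self_den, Rat.den_intCast] at h2
      exact Nat.eq_one_of_mul_eq_one_right h2
    have heven : (2 : ℤ) ∣ n := by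
      have h4 : m * m + n * n = 4 * c := by
        have : ((m * m + n * n : ℤ) : ℚ) = ((4 * c : ℤ) : ℚ) := by
          push_cast; rw [← hm, ← hn]; linear_combination 4 * hc
        exact_mod_cast this
      by_contra ho
      obtain ⟨k, rfl⟩ := Int.odd_iff.mpr (by omega : n % 2 = 1)
      rcases Int.even_or_odd m with ⟨j, rfl⟩ | ⟨j, rfl⟩ <;> ring_nf at h4 <;> omega
    obtain ⟨k, rfl⟩ := heven
    have hb : b = k := by push_cast at hn; linarith
    subst hb
    rw [hgx, show (a : Qb) - ((k : ℚ) : Qb) * i - ((a : Qb) + ((k : ℚ) : Qb) * i) =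
      (2 : ℕ) * (-(((k : ℤ) : Qb) * i)) by push_cast; ring, map_mul]
    refine (mul_le_of_le_one_right' ?_).trans_lt (show A.valuation ((2 : ℕ) : Qb) < 1 from hA)
    rw [Valuation.map_neg, A.valuation_le_one_iff]
    exact mul_mem (intCast_mem A k) (GalRep.root_mem 4 (by norm_num) hprim.pow_eq_one)
  exact ⟨σ, hσ, by rw [hσE i (IntermediateField.mem_adjoin_simple_self ℚ i), hg]; exact hne⟩

/-- An integer whose square root is fixed by inertia at `l` has even valuation at `l`. -/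
theorem even_padicValInt_of_fixed {l : ℕ} (hl : l.Prime) {A : ValuationSubring Qb}
    (hA : A.LiesOverPrime l) {y : Qb} {d : ℤ} (hd : d ≠ 0) (hy : y ^ 2 = (d : Qb))
    (h : ∀ σ ∈ A.inertiaSubgroupIn ℚ, σ y = y) : Even (padicValInt l d) := by
  have hy0 : y ≠ 0 := fun h0 => hd (Int.cast_injective (α := Qb) (by simpa [h0] using hy.symm))
  obtain ⟨k, hk⟩ := Peu.valuation_eq_zpow_of_fixed hl hA hy0 h
  have hv0 : 0 < A.valuation (l : Qb) :=
    zero_lt_iff.mpr ((map_ne_zero _).mpr (Nat.cast_ne_zero.mpr hl.ne_zero))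
  have hv1 : A.valuation (l : Qb) < 1 := hA
  have h2 : A.valuation (l : Qb) ^ (padicValInt l d : ℤ) = A.valuation (l : Qb) ^ (2 * k) := by
    rw [zpow_natCast, ← v_intCast_eq_pow hA hl hd, ← hy, map_pow, hk, ← zpow_natCast, ← zpow_mul]
    congr 1
    push_cast
    ring
  have := zpow_right_injective₀ hv0 hv1.ne h2
  exact (Int.even_coe_nat _).mp ⟨k, by rw [this]; ring⟩

variable {p : ℕ}

/-- An index two subgroup with inertia away from the odd prime `p` inside is the stabiliser of a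
square root of `±p`. -/
theorem exists_sqrt_pm (hp : p.Prime) (hp2 : p ≠ 2) (G : Subgroup GQ) (hG : G.index = 2)
    (hopen : ∃ L : IntermediateField ℚ Qb, FiniteDimensional ℚ L ∧
      ∀ σ : GQ, (∀ x ∈ L, σ x = x) → σ ∈ G)
    (hI : ∀ (l : ℕ), l.Prime → l ≠ p → ∀ A : ValuationSubring Qb, A.LiesOverPrime l →
      A.inertiaSubgroupIn ℚ ≤ G) :
    ∃ y : Qb, (y ^ 2 = (p : Qb) ∨ y ^ 2 = -(p : Qb)) ∧ ∀ σ, σ ∈ G ↔ σ y = y := by
  have := qb_galois
  have : Algebra.IsAlgebraic ℚ Qb := AlgebraicClosure.isAlgebraic ℚ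
  obtain ⟨L, hL, hLG⟩ := hopen
  have hmulG : ∀ x z : GQ, x * z ∈ G ↔ (x ∈ G ↔ z ∈ G) := fun x z =>
    Subgroup.mul_mem_iff_of_index_two hG
  obtain ⟨τ, hτ⟩ : ∃ τ, τ ∉ G := by
    by_contra h
    push Not at h
    rw [(Subgroup.eq_top_iff' G).mpr h, Subgroup.index_top] at hG
    omega
  -- an element fixed by `G` and moved by `τ`
  obtain ⟨z, hzG, hzτ⟩ : ∃ z : Qb, (∀ σ ∈ G, σ z = z) ∧ τ z ≠ z := by
    by_contra hc
    push Not at hc
    apply hτ
    have hclosed : IsClosed (G : Set GQ) := by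
      refine Subgroup.isClosed_of_isOpen G (Subgroup.isOpen_mono (H₁ := L.fixingSubgroup)
        (fun σ hσ => hLG σ ((IntermediateField.mem_fixingSubgroup_iff _ _).mp hσ))
        (IntermediateField.fixingSubgroup_isOpen L))
    have h := InfiniteGalois.fixingSubgroup_fixedField (k := ℚ) (K := Qb) ⟨G, hclosed⟩
    show τ ∈ (⟨G, hclosed⟩ : ClosedSubgroup GQ).toSubgroup
    rw [← h]
    exact (IntermediateField.mem_fixingSubgroup_iff _ _).mpr fun x hx =>
      hc x fun σ hσ => hx ⟨σ, hσ⟩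
  have hτz : ∀ σ : GQ, σ ∉ G → σ z = τ z := fun σ hσ => by
    have hmem : τ⁻¹ * σ ∈ G := by simp [hmulG, hτ, hσ]
    conv_lhs => rw [show σ = τ * (τ⁻¹ * σ) by group, AlgEquiv.mul_apply, hzG _ hmem]
  have hττ : τ (τ z) = z := by
    rw [← AlgEquiv.mul_apply]; exact hzG _ ((hmulG τ τ).mpr Iff.rfl)
  obtain ⟨u, hu⟩ : ∃ u, u = z - τ z := ⟨_, rfl⟩
  have hu0 : u ≠ 0 := hu ▸ sub_ne_zero.mpr (Ne.symm hzτ)
  have huneg : ∀ σ : GQ, σ ∉ G → σ u = -u := fun σ hσ => by
    have hmem : τ⁻¹ * σ ∈ G := by simp [hmulG, hτ, hσ]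
    rw [show σ = τ * (τ⁻¹ * σ) by group, AlgEquiv.mul_apply, hu, map_sub, hzG _ hmem]
    have : (τ⁻¹ * σ) (τ z) = τ z := by
      rw [← AlgEquiv.mul_apply, hτz _ (by simp [hmulG, hτ, hσ])]
    rw [this, map_sub, hττ]
    ring
  have hufix : ∀ σ : GQ, σ ∈ G → σ u = u := fun σ hσ => by
    rw [hu, map_sub, hzG σ hσ, ← AlgEquiv.mul_apply, hτz _ (by simp [hmulG, hτ, hσ])]
  -- rescale to an integral square
  obtain ⟨r, hr⟩ := (InfiniteGalois.mem_range_algebraMap_iff_fixed (k := ℚ) (u ^ 2)).mpr fun σ => by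
    by_cases hσ : σ ∈ G
    · rw [map_pow, hufix σ hσ]
    · rw [map_pow, huneg σ hσ, neg_sq]
  rw [eq_ratCast] at hr
  obtain ⟨b, a, hsf, hab⟩ : ∃ (b : ℕ) (a : ℕ), Squarefree a ∧
      b ^ 2 * a = (r.num * r.den).natAbs := by
    obtain ⟨a, b, hab, hsf⟩ := Nat.sq_mul_squarefree (r.num * r.den).natAbs
    exact ⟨b, a, hsf, hab⟩
  have hr0 : r ≠ 0 := by
    rintro rfl
    exact hu0 (pow_eq_zero_iff two_ne_zero |>.mp (by simpa using hr.symm))
  have hn0 : r.num * r.den ≠ 0 := mul_ne_zero (Rat.num_ne_zero.mpr hr0) (by exact_mod_cast r.den_nz)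
  have hb0 : (b : Qb) ≠ 0 := by
    intro h0
    have : b = 0 := by exact_mod_cast h0
    rw [this] at hab
    simp at hab
    exact hn0 (Int.natAbs_eq_zero.mp hab.symm)
  obtain ⟨e, he1, he⟩ : ∃ e : ℤ, (e = 1 ∨ e = -1) ∧ r.num * r.den = e * (b ^ 2 * a : ℕ) := by
    rcases Int.natAbs_eq (r.num * r.den) with h | h
    · exact ⟨1, Or.inl rfl, by rw [one_mul, hab]; exact h⟩
    · exact ⟨-1, Or.inr rfl, by rw [neg_one_mul, hab]; exact h⟩
  obtain ⟨y, hy⟩ : ∃ y, y = (r.den : Qb) * u / b := ⟨_, rfl⟩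
  have hy2 : y ^ 2 = ((e * a : ℤ) : Qb) := by
    rw [hy, div_pow, mul_pow, ← hr, div_eq_iff (pow_ne_zero 2 hb0)]
    have h1 : ((r.den : ℚ) ^ 2 * r) = ((r.num * r.den : ℤ) : ℚ) := by
      push_cast
      rw [← Rat.mul_den_eq_num r]
      ring
    have h2 : ((r.den : Qb) ^ 2 * (r : Qb)) = ((r.num * r.den : ℤ) : Qb) := by exact_mod_cast h1
    rw [h2, he]
    push_cast
    ring
  have hyG : ∀ σ, σ ∈ G ↔ σ y = y := fun σ => by
    have hσy : σ y = (r.den : Qb) * σ u / b := by rw [hy, map_div₀, map_mul, map_natCast, map_natCast]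
    constructor
    · intro hσ; rw [hσy, hufix σ hσ, hy]
    · intro h
      by_contra hσ
      rw [hσy, huneg σ hσ, hy, div_left_inj' hb0, mul_neg] at h
      have : (2 : Qb) * ((r.den : Qb) * u) = 0 := by linear_combination -h
      simp [hu0] at this
  have ha0 : a ≠ 0 := hsf.ne_zero
  have hea : e * (a : ℤ) ≠ 0 := mul_ne_zero (by omega) (by exact_mod_cast ha0)
  -- only `p` divides the squarefree part
  have hdiv : ∀ l : ℕ, l.Prime → l ∣ a → l = p := by
    intro l hl hla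
    by_contra hlp
    obtain ⟨A, hA⟩ := Frobenius.exists_liesOverPrime hl
    have hev := even_padicValInt_of_fixed hl hA hea hy2 fun σ hσ =>
      (hyG σ).mp (hI l hl hlp A hA hσ)
    have hfact := Fact.mk hl
    have h1 : padicValNat l a = 1 := by
      refine le_antisymm ?_ (one_le_padicValNat_of_dvd ha0 hla)
      by_contra hge
      exact hl.ne_one (Nat.isUnit_iff.mp (hsf l (by
        rw [← pow_two]
        exact (pow_dvd_pow l (by omega : 2 ≤ padicValNat l a)).trans pow_padicValNat_dvd)))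
    have : padicValInt l (e * a) = padicValNat l a := by
      rcases he1 with rfl | rfl <;> simp [padicValInt]
    rw [this, h1] at hev
    exact Nat.not_even_one hev
  have hcases : a = 1 ∨ a = p := by
    rcases eq_or_ne a 1 with h | h
    · exact Or.inl h
    refine Or.inr ?_
    obtain ⟨l, hl, hla⟩ := Nat.exists_prime_and_dvd h
    have hlp := hdiv l hl hla
    subst hlp
    obtain ⟨c, rfl⟩ := hla
    rcases eq_or_ne c 1 with rfl | hc
    · rw [mul_one]
    · obtain ⟨m, hm, hmc⟩ := Nat.exists_prime_and_dvd hc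
      have := hdiv m hm (hmc.mul_left l)
      subst this
      exact absurd (Nat.isUnit_iff.mp (hsf m (mul_dvd_mul_left m hmc))) hm.ne_one
  have hτy : τ y ≠ y := fun h => hτ ((hyG τ).mpr h)
  rcases hcases with rfl | rfl
  · exfalso
    rcases he1 with rfl | rfl
    · rcases sq_eq_one_iff.mp (by simpa using hy2 : y ^ 2 = 1) with h | h <;> simp [h] at hτy
    · obtain ⟨A, hA⟩ := Frobenius.exists_liesOverPrime Nat.prime_two
      obtain ⟨σ, hσ, hne⟩ := exists_inertia_two_moves hA (i := y) (by simpa using hy2)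
      exact hne ((hyG σ).mp (hI 2 Nat.prime_two (Ne.symm hp2) A hA hσ))
  · refine ⟨y, ?_, hyG⟩
    rcases he1 with rfl | rfl
    · exact Or.inl (by simpa using hy2)
    · exact Or.inr (by simpa using hy2)

/-- Two such subgroups are equal. -/
theorem unique_index_two (hp : p.Prime) (hp2 : p ≠ 2) {G G' : Subgroup GQ} (hG : G.index = 2)
    (hG' : G'.index = 2)
    (hopen : ∃ L : IntermediateField ℚ Qb, FiniteDimensional ℚ L ∧
      ∀ σ : GQ, (∀ x ∈ L, σ x = x) → σ ∈ G)
    (hopen' : ∃ L : IntermediateField ℚ Qb, FiniteDimensional ℚ L ∧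
      ∀ σ : GQ, (∀ x ∈ L, σ x = x) → σ ∈ G')
    (hI : ∀ (l : ℕ), l.Prime → l ≠ p → ∀ A : ValuationSubring Qb, A.LiesOverPrime l →
      A.inertiaSubgroupIn ℚ ≤ G)
    (hI' : ∀ (l : ℕ), l.Prime → l ≠ p → ∀ A : ValuationSubring Qb, A.LiesOverPrime l →
      A.inertiaSubgroupIn ℚ ≤ G') : G = G' := by
  obtain ⟨y, hy, hyG⟩ := exists_sqrt_pm hp hp2 G hG hopen hI
  obtain ⟨y', hy', hyG'⟩ := exists_sqrt_pm hp hp2 G' hG' hopen' hI'
  have hp0 : (p : Qb) ≠ 0 := Nat.cast_ne_zero.mpr hp.ne_zero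
  have hne : ∀ {w : Qb}, (w ^ 2 = (p : Qb) ∨ w ^ 2 = -(p : Qb)) → w ≠ 0 := by
    rintro w hw rfl
    rcases hw with h | h <;> simp at h <;> first | exact hp0 h.symm | exact hp.ne_zero h | exact hp.ne_zero h.symm
  have hsame : y ^ 2 = y' ^ 2 := by
    by_contra hc
    have hiv : (y / y') ^ 2 = -1 := by
      rw [div_pow, div_eq_iff (pow_ne_zero 2 (hne hy'))]
      rcases hy with h | h <;> rcases hy' with h' | h' <;>
        first | exact absurd (h.trans h'.symm) hc | (rw [h, h']; ring)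
    obtain ⟨A, hA⟩ := Frobenius.exists_liesOverPrime Nat.prime_two
    obtain ⟨σ, hσ, hne'⟩ := exists_inertia_two_moves hA hiv
    exact hne' (by rw [map_div₀, (hyG σ).mp (hI 2 Nat.prime_two (Ne.symm hp2) A hA hσ),
      (hyG' σ).mp (hI' 2 Nat.prime_two (Ne.symm hp2) A hA hσ)])
  ext σ
  rw [hyG, hyG']
  rcases sq_eq_sq_iff_eq_or_eq_neg.mp hsame with h | h
  · rw [h]
  · rw [h, map_neg, neg_inj]

/-- Some inertia element at `p` lies outside. -/
theorem exists_inertia_not_mem (hp : p.Prime) (hp2 : p ≠ 2) (G : Subgroup GQ) (hG : G.index = 2)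
    (hopen : ∃ L : IntermediateField ℚ Qb, FiniteDimensional ℚ L ∧
      ∀ σ : GQ, (∀ x ∈ L, σ x = x) → σ ∈ G)
    (hI : ∀ (l : ℕ), l.Prime → l ≠ p → ∀ A : ValuationSubring Qb, A.LiesOverPrime l →
      A.inertiaSubgroupIn ℚ ≤ G)
    {A : ValuationSubring Qb} (hA : A.LiesOverPrime p) :
    ∃ σ ∈ A.inertiaSubgroupIn ℚ, σ ∉ G := by
  obtain ⟨y, hy, hyG⟩ := exists_sqrt_pm hp hp2 G hG hopen hI
  by_contra hc
  push Not at hc
  have := Fact.mk hp
  rcases hy with hy | hy
  · have h := even_padicValInt_of_fixed hp hA (d := (p : ℤ)) (by exact_mod_cast hp.ne_zero)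
      (by simpa using hy) fun σ hσ => (hyG σ).mp (hc σ hσ)
    simp [padicValInt, padicValNat_self] at h
  · have h := even_padicValInt_of_fixed hp hA (d := -(p : ℤ)) (by simp [hp.ne_zero])
      (by simpa using hy) fun σ hσ => (hyG σ).mp (hc σ hσ)
    simp [padicValInt, padicValNat_self] at h

end FLTAgent.RTIrr
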