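import Fermat.Agent.RT.Irr.Local
import Fermat.Agent.RT.Irr.Monomial
import Fermat.Agent.RT.Irr.QuadField
import Mathlib.GroupTheory.Sylow
import Mathlib.LinearAlgebra.Matrix.GeneralLinearGroup.Card

/-!
# A semistable irreducible `E[p]` stays absolutely irreducible on index two subgroups
-/

set_option autoImplicit false
set_option linter.unusedSectionVars false

open scoped WeierstrassCurve.Affine
open WeierstrassCurve FLTAgent.Reduction FLTAgent.Deformation FLTAgent.LevelDrop Matrix

namespace FLTAgent.RTIrr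

local notation "Qb" => AlgebraicClosure ℚ
local notation "GQ" => AlgebraicClosure ℚ ≃ₐ[ℚ] AlgebraicClosure ℚ

theorem exists_smul_of_mulVec_eq_zero {K : Type*} [Field K] {N : Matrix (Fin 2) (Fin 2) K}
    (hN : N ≠ 0) {v w : Fin 2 → K} (hv : N *ᵥ v = 0) (hw : N *ᵥ w = 0) (hw0 : w ≠ 0) :
    ∃ a : K, v = a • w := by
  by_contra hc
  push Not at hc
  refine hN ?_
  let M : Matrix (Fin 2) (Fin 2) K := Matrix.of fun i j => ![w, v] j i
  have hM : IsUnit M := by
    rw [← Matrix.linearIndependent_cols_iff_isUnit]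
    have c0 : M.col 0 = w := rfl
    have c1 : M.col 1 = v := rfl
    exact linearIndependent_fin2.mpr ⟨fun h => hc 0 (by simpa [c1] using h), fun a h => by
      by_cases ha : a = 0
      · exact hw0 (by simpa [ha, c0] using h.symm)
      · refine hc a⁻¹ ?_
        have h' : a • v = w := by simpa [c0, c1] using h
        rw [← h', smul_smul, inv_mul_cancel₀ ha, one_smul]⟩
  have h0 : N * M = 0 := by
    ext i j
    fin_cases j
    · exact (Matrix.mul_apply).trans (by simpa [Matrix.mulVec, dotProduct, M] using congrFun hw i)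
    · exact (Matrix.mul_apply).trans (by simpa [Matrix.mulVec, dotProduct, M] using congrFun hv i)
  exact (hM.mul_left_eq_zero).mp h0

variable {W : WeierstrassCurve ℤ} (hΔ : W.Δ ≠ 0) (p : ℕ) [hp : Fact p.Prime]

theorem not_hasStableLine_torsMat (hirr : W.ModRepIsIrreducible p) :
    ¬ HasStableLine (torsMat hΔ p) Set.univ := by
  rintro ⟨v, hv, hst⟩
  set b := torsBasis hΔ p
  rcases isIrreducible_torsRep hΔ p hirr (ZMod p ∙ b.equivFun.symm v) fun σ x hx => by
    obtain ⟨t, rfl⟩ := Submodule.mem_span_singleton.mp hx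
    obtain ⟨a, ha⟩ := hst σ trivial
    refine Submodule.mem_span_singleton.mpr ⟨t * a, b.equivFun.injective ?_⟩
    rw [← repMatrix_mulVec (torsRep hΔ p).ρ b σ, map_smul, map_smul, LinearEquiv.apply_symm_apply,
      Matrix.mulVec_smul]
    show (t * a) • v = t • (torsMat hΔ p σ *ᵥ v)
    rw [ha, smul_smul]
  with h | h
  · exact hv (b.equivFun.symm.injective (by
      rw [map_zero]; exact Submodule.span_singleton_eq_bot.mp h))
  · have h1 := congrArg (fun S : Submodule (ZMod p) (torsRep hΔ p).V => Module.finrank (ZMod p) S) h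
    rw [finrank_span_singleton (fun h0 => hv (b.equivFun.symm.injective (by rw [map_zero]; exact h0))),
      finrank_top, (torsRep hΔ p).finrank_eq] at h1
    omega

theorem torsMat_conj_props (hp2 : p ≠ 2) :
    torsMat hΔ p complexConjugation * torsMat hΔ p complexConjugation = 1 ∧
      (torsMat hΔ p complexConjugation).det = -1 ∧ (torsMat hΔ p complexConjugation).trace = 0 := by
  have h1 : torsMat hΔ p complexConjugation * torsMat hΔ p complexConjugation = 1 := by
    rw [← map_mul, complexConjugation_mul_self, map_one]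
  have h2 : (torsMat hΔ p complexConjugation).det = -1 := by
    rw [torsMat_eq, LinearMap.det_toMatrix]
    exact det_torsRep_involution hΔ p hp2 complexConjugation_mul_self
      FLTAgent.GalRep.complexConjugation_ne_one
  refine ⟨h1, h2, ?_⟩
  generalize torsMat hΔ p complexConjugation = M at h1 h2 ⊢
  have a := congrFun (congrFun h1 0) 0
  have d := congrFun (congrFun h1 1) 1
  simp [Matrix.mul_apply, Fin.sum_univ_two] at a d
  rw [Matrix.det_fin_two] at h2
  rw [Matrix.trace_fin_two]
  exact mul_self_eq_zero.mp (by linear_combination a + d + 2 * h2)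

/-- Eigenvectors of complex conjugation with eigenvalue `±1` are rational. -/
theorem exists_eigen (hp2 : p ≠ 2) {e : ZMod p} (he : e * e = 1) :
    ∃ v₀ : Fin 2 → ZMod p, v₀ ≠ 0 ∧
      (torsMat hΔ p complexConjugation - e • (1 : Mat (ZMod p))) *ᵥ v₀ = 0 ∧
      torsMat hΔ p complexConjugation - e • (1 : Mat (ZMod p)) ≠ 0 := by
  obtain ⟨h1, h2, h3⟩ := torsMat_conj_props hΔ p hp2
  have hdet : (torsMat hΔ p complexConjugation - e • (1 : Mat (ZMod p))).det = 0 := by
    rw [Matrix.det_fin_two] at h2 ⊢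
    rw [Matrix.trace_fin_two] at h3
    simp
    linear_combination h2 - e * h3 + he
  obtain ⟨v, hv, hv0⟩ := Matrix.exists_mulVec_eq_zero_iff.mpr hdet
  refine ⟨v, hv, hv0, fun h => ?_⟩
  rw [sub_eq_zero.mp h, Matrix.det_smul, Fintype.card_fin, Matrix.det_one, mul_one, sq, he] at h2
  have h2' : (2 : ZMod p) = 0 := by linear_combination h2
  have : ((2 : ℕ) : ZMod p) = 0 := by exact_mod_cast h2'
  rw [ZMod.natCast_eq_zero_iff] at this
  exact hp2 ((Nat.prime_dvd_prime_iff_eq hp.out Nat.prime_two).mp this)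

variable {K : Type} [Field K] (φ : ZMod p →+* K)

/-- Absolute irreducibility in matrix form. -/
theorem not_hasStableLine_map (hp2 : p ≠ 2) (hirr : W.ModRepIsIrreducible p) :
    ¬ HasStableLine (mapRep φ (torsMat hΔ p)) Set.univ := by
  rintro ⟨v, hv, hst⟩
  obtain ⟨h1, -, -⟩ := torsMat_conj_props hΔ p hp2
  obtain ⟨a, ha⟩ := hst complexConjugation trivial
  have haa : a * a = 1 := by
    have h := congrArg (fun w => mapRep φ (torsMat hΔ p) complexConjugation *ᵥ w) ha
    rw [Matrix.mulVec_mulVec, ← map_mul, complexConjugation_mul_self, map_one, Matrix.one_mulVec,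
      Matrix.mulVec_smul, ha, smul_smul] at h
    obtain ⟨i, hi⟩ := Function.ne_iff.mp hv
    have := congrFun h i
    simp at this
    exact mul_right_cancel₀ hi (by rw [one_mul]; exact this.symm)
  obtain ⟨e, he, hea⟩ : ∃ e : ZMod p, e * e = 1 ∧ φ e = a := by
    rcases mul_self_eq_one_iff.mp haa with rfl | rfl
    · exact ⟨1, mul_one 1, map_one φ⟩
    · exact ⟨-1, by simp, by simp⟩
  obtain ⟨v₀, hv0, hker, hne⟩ := exists_eigen hΔ p hp2 he
  set N := torsMat hΔ p complexConjugation - e • (1 : Mat (ZMod p))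
  have hNmap : N.map φ = mapRep φ (torsMat hΔ p) complexConjugation - a • (1 : Mat K) := by
    ext i j
    simp [N, mapRep_apply, Matrix.one_apply, apply_ite φ, hea]
  have hNK : N.map φ ≠ 0 := fun h => hne (Matrix.map_injective φ.injective (by
    show N.map φ = (0 : Mat (ZMod p)).map φ
    rw [h]; ext i j; simp))
  have hv0K : (φ ∘ v₀) ≠ 0 := fun h => hv0 (funext fun i => φ.injective (by
    simpa using congrFun h i))
  obtain ⟨t, ht⟩ := exists_smul_of_mulVec_eq_zero hNK (v := v) (w := φ ∘ v₀)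
    (by rw [hNmap, Matrix.sub_mulVec, ha, Matrix.smul_mulVec, Matrix.one_mulVec, sub_self])
    (funext fun i => by rw [← RingHom.map_mulVec, hker]; simp) hv0K
  have ht0 : t ≠ 0 := fun h => hv (by rw [ht, h, zero_smul])
  refine not_hasStableLine_torsMat hΔ p hirr ⟨v₀, hv0, fun g _ => ?_⟩
  obtain ⟨c, hc⟩ := hst g trivial
  rw [ht, Matrix.mulVec_smul, smul_comm c t] at hc
  have hc' := smul_right_injective _ ht0 hc
  obtain ⟨i, hi⟩ := Function.ne_iff.mp hv0
  refine ⟨(torsMat hΔ p g *ᵥ v₀) i / v₀ i, funext fun j => φ.injective ?_⟩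
  have e1 : ∀ k, φ ((torsMat hΔ p g *ᵥ v₀) k) = c * φ (v₀ k) := fun k => by
    rw [RingHom.map_mulVec]; exact congrFun hc' k
  rw [e1, Pi.smul_apply, smul_eq_mul, map_mul, map_div₀, e1,
    mul_div_cancel_right₀ c ((map_ne_zero φ).mpr hi)]

theorem exists_pow_eq_one (g : GQ) : ∃ N, 0 < N ∧ torsMat hΔ p g ^ N = 1 := by
  refine ⟨Nat.card (Mat (ZMod p))ˣ, Nat.card_pos, ?_⟩
  have := congrArg Units.val (pow_card_eq_one' (x := (torsMat hΔ p).toHomUnits g))
  rw [Units.val_pow_eq_pow_val, Units.val_one] at this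
  exact this

theorem natCard_GL_three : Nat.card (GL (Fin 2) (ZMod 3)) = 48 := by
  haveI : Fact (Nat.Prime 3) := ⟨Nat.prime_three⟩
  rw [Matrix.card_GL_field]
  simp [Fin.prod_univ_two]

/-- The representation stays absolutely irreducible on every subgroup of index two. -/
theorem not_hasStableLine_index_two (hsemi : W.IsSemistableModel) (hp2 : p ≠ 2)
    (hirr : W.ModRepIsIrreducible p) (G : Subgroup GQ) (hG : G.index = 2) :
    ¬ HasStableLine (mapRep φ (torsMat hΔ p)) (G : Set GQ) := by
  classical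
  intro hline
  set r := torsMat hΔ p with hr
  set rK := mapRep φ r with hrK
  have hirrK := not_hasStableLine_map hΔ p φ hp2 hirr
  have hmulG : ∀ x z : GQ, x * z ∈ G ↔ (x ∈ G ↔ z ∈ G) := fun x z =>
    Subgroup.mul_mem_iff_of_index_two hG
  have hker : ∀ κ, r κ = 1 → κ ∈ G := fun κ hκ => by
    by_contra hκG
    obtain ⟨v, hv, hst⟩ := hline
    refine hirrK ⟨v, hv, fun g _ => ?_⟩
    by_cases hg : g ∈ G
    · exact hst g hg
    · obtain ⟨a, ha⟩ := hst (g * κ) (by simp [hmulG, hg, hκG])
      refine ⟨a, ?_⟩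
      rw [← ha, map_mul, show rK κ = (r κ).map φ from rfl, hκ,
        Matrix.map_one _ (map_zero φ) (map_one φ), mul_one]
  obtain ⟨L, hL, hLfix⟩ := (torsRep hΔ p).factorsThroughFiniteLevel
  have hL1 : ∀ σ : GQ, (∀ x ∈ L, σ x = x) → r σ = 1 := fun σ hσ => by
    rw [hr, torsMat_eq, hLfix σ hσ, LinearMap.toMatrix_one]
  have hopen : ∃ L : IntermediateField ℚ Qb, FiniteDimensional ℚ L ∧
      ∀ σ : GQ, (∀ x ∈ L, σ x = x) → σ ∈ G := ⟨L, hL, fun σ hσ => hker σ (hL1 σ hσ)⟩
  obtain ⟨P, hmon⟩ := exists_monomial rK G hG hline hirrK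
  set r' := cjHom rK P with hr'
  have htr : ∀ g, (r' g).trace = φ (r g).trace := fun g => by
    rw [hr', trace_cjHom]; exact (AddMonoidHom.map_trace φ.toAddMonoidHom (r g)).symm
  have hdet : ∀ g, (r' g).det = φ (r g).det := fun g => by
    rw [hr', det_cjHom]; exact (RingHom.map_det φ (r g)).symm
  have hback : ∀ g, r' g = 1 → r g = 1 := fun g hg => Matrix.map_injective φ.injective (by
    show rK g = (1 : Mat (ZMod p)).map φ
    rw [eq_of_cjHom rK P g, ← hr', hg, mul_one, Units.mul_inv,
      Matrix.map_one _ (map_zero φ) (map_one φ)])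
  have := charP_of_injective_ringHom φ.injective p
  have h2K : (2 : K) ≠ 0 := fun h => by
    have : ((2 : ℕ) : K) = 0 := by exact_mod_cast h
    rw [CharP.cast_eq_zero_iff K p] at this
    exact hp2 ((Nat.prime_dvd_prime_iff_eq hp.out Nat.prime_two).mp this)
  -- inertia away from `p` is trivial
  have hIl : ∀ l : ℕ, l.Prime → l ≠ p → ∀ A : ValuationSubring Qb, A.LiesOverPrime l →
      ∀ σ ∈ A.inertiaSubgroupIn ℚ, r σ = 1 := fun l hl hlp A hA σ hσ => by
    obtain ⟨ht, hd⟩ := unipotent_inertia_ne hΔ p hsemi hl hlp hA hσ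
    exact hback σ (hmon.eq_one_of_unipotent h2K (by rw [htr, hr, ht, map_ofNat])
      (by rw [hdet, hr, hd, map_one])).2
  have hIG : ∀ l : ℕ, l.Prime → l ≠ p → ∀ A : ValuationSubring Qb, A.LiesOverPrime l →
      A.inertiaSubgroupIn ℚ ≤ G := fun l hl hlp A hA σ hσ => hker σ (hIl l hl hlp A hA σ hσ)
  have hord : ∀ g, ∃ m, m.Coprime p ∧ r g ^ m = 1 := fun g => by
    obtain ⟨N, hN, hgN⟩ := exists_pow_eq_one hΔ p g
    obtain ⟨m, hm, hmg⟩ := hmon.exists_pow_eq_one_of_coprime hG hp2 (g := g)
      ⟨N, hN, by rw [← map_pow, hr', cjHom_apply, show rK (g ^ N) = (r (g ^ N)).map φ from rfl,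
        map_pow, hgN, Matrix.map_one _ (map_zero φ) (map_one φ), mul_one, Units.inv_mul]⟩
    exact ⟨m, hm, by rw [← map_pow]; exact hback _ (by rw [map_pow]; exact hmg)⟩
  by_cases h3 : p = 3
  · -- the image is a cyclic `2`-group
    subst h3
    set H := r.toHomUnits.range with hH
    let f : GQ →* H := (r.toHomUnits).rangeRestrict
    have hf : Function.Surjective f := r.toHomUnits.rangeRestrict_surjective
    have hfone : ∀ g, r g = 1 → f g = 1 := fun g hg => Subtype.ext (Units.ext hg)
    obtain ⟨n, hn⟩ : ∃ n, Nat.card H = 2 ^ n := by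
      refine ⟨_, Nat.eq_prime_pow_of_unique_prime_dvd Nat.card_pos.ne' fun {q} hq hqd => ?_⟩
      have hq48 : q ∣ 48 := natCard_GL_three ▸ hqd.trans (Subgroup.card_subgroup_dvd_card H)
      rcases (hq.dvd_mul (m := 16) (n := 3)).mp hq48 with h | h
      · exact (Nat.prime_dvd_prime_iff_eq hq Nat.prime_two).mp
          (hq.dvd_of_dvd_pow (n := 4) (by simpa using h))
      · exfalso
        obtain rfl := (Nat.prime_dvd_prime_iff_eq hq Nat.prime_three).mp h
        obtain ⟨x, hx⟩ := exists_prime_orderOf_dvd_card' 3 hqd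
        obtain ⟨g, rfl⟩ := hf x
        obtain ⟨m, hm, hgm⟩ := hord g
        have : f g ^ m = 1 := by rw [← map_pow]; exact hfone _ (by rw [map_pow]; exact hgm)
        rw [← orderOf_dvd_iff_pow_eq_one, hx] at this
        exact (Nat.Prime.coprime_iff_not_dvd Nat.prime_three).mp (Nat.coprime_comm.mp hm) this
    obtain ⟨s, hs⟩ : ∃ s, s ∉ G := by
      by_contra h
      push Not at h
      rw [(Subgroup.eq_top_iff' G).mpr h, Subgroup.index_top] at hG
      omega
    have hcomm : ∀ g h : GQ, r g * r h = r h * r g := by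
      obtain ⟨a, ha, hcard⟩ := (Nat.dvd_prime_pow Nat.prime_two).mp
        (hn ▸ Subgroup.card_subgroup_dvd_card (Subgroup.zpowers (f s)))
      have htop : Subgroup.zpowers (f s) = ⊤ := by
        rcases eq_or_lt_of_le ha with rfl | hlt
        · exact Subgroup.eq_top_of_card_eq _ (hcard.trans hn.symm)
        exfalso
        obtain ⟨K', hK', hle⟩ := Sylow.exists_subgroup_card_pow_prime_le 2
          (m := n - 1) (hn ▸ pow_dvd_pow 2 (Nat.sub_le n 1)) (Subgroup.zpowers (f s)) hcard (by omega)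
        have hidx : (K'.comap f).index = 2 := by
          rw [Subgroup.index_comap_of_surjective _ hf]
          have := K'.index_mul_card
          rw [hK', hn, show 2 ^ n = 2 * 2 ^ (n - 1) by
            rw [← pow_succ']; congr 1; omega] at this
          exact Nat.eq_of_mul_eq_mul_right (by positivity) this
        have heq := unique_index_two Nat.prime_three hp2 hidx hG
          ⟨L, hL, fun σ hσ => by
            rw [Subgroup.mem_comap, hfone σ (hL1 σ hσ)]; exact one_mem _⟩ hopen
          (fun l hl hlp A hA σ hσ => by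
            rw [Subgroup.mem_comap, hfone σ (hIl l hl hlp A hA σ hσ)]; exact one_mem _) hIG
        exact hs (heq ▸ Subgroup.mem_comap.mpr (hle (Subgroup.mem_zpowers _)))
      intro g h
      have hmem : ∀ x, x ∈ Subgroup.zpowers (f s) := fun x => htop ▸ Subgroup.mem_top x
      obtain ⟨i, hi⟩ := Subgroup.mem_zpowers_iff.mp (hmem (f g))
      obtain ⟨j, hj⟩ := Subgroup.mem_zpowers_iff.mp (hmem (f h))
      have : f g * f h = f h * f g := by rw [← hi, ← hj, ← _root_.zpow_add, ← _root_.zpow_add, add_comm]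
      exact congrArg (fun x : H => ((x : (Mat (ZMod 3))ˣ) : Mat (ZMod 3))) this
    obtain ⟨v₀, hv0, hker0, hne⟩ := exists_eigen hΔ 3 hp2 (e := 1) (mul_one 1)
    refine not_hasStableLine_torsMat hΔ 3 hirr ⟨v₀, hv0, fun g _ => ?_⟩
    refine exists_smul_of_mulVec_eq_zero hne ?_ hker0 hv0
    rw [Matrix.mulVec_mulVec, sub_mul, Matrix.smul_mul, one_mul, one_smul, hcomm,
      show r g * r complexConjugation - r g = r g * (r complexConjugation - (1 : ZMod 3) • 1) by
        rw [one_smul, mul_sub, mul_one],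
      ← Matrix.mulVec_mulVec, hker0, Matrix.mulVec_zero]
  -- `p ≥ 5`
  have hp5 : 5 ≤ p := by
    have := hp.out.two_le
    rcases Nat.lt_or_ge p 5 with h | h
    · exfalso
      rcases (show p = 2 ∨ p = 3 ∨ p = 4 by omega) with h' | h' | h'
      · exact hp2 h'
      · exact h3 h'
      · exact absurd (h' ▸ hp.out : Nat.Prime 4) (by norm_num)
    · exact h
  obtain ⟨A, hA⟩ := Frobenius.exists_liesOverPrime hp.out
  obtain ⟨s, hsI, hs⟩ := exists_inertia_not_mem hp.out hp2 G hG hopen hIG hA
  by_cases hline1 : ∃ (L' : AddSubgroup (WQbar W).toAffine.Point) (v₀ : TorsQ W p),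
      (v₀ : (WQbar W).toAffine.Point) ∉ L' ∧ ∀ σ ∈ A.inertiaSubgroupIn ℚ, ∀ v : TorsQ W p,
        σ • (v : (WQbar W).toAffine.Point) - v ∈ L'
  · obtain ⟨L', v₀, hv₀, hL'⟩ := hline1
    have hdm : ∀ σ ∈ A.inertiaSubgroupIn ℚ, σ ∉ G → (r σ).det = -1 := fun σ hσ hσG => by
      have h := hmon.trace_eq_zero hσG
      rw [htr, map_eq_zero, hr, trace_eq_det_add_one hΔ p L' v₀ hv₀ (hL' σ hσ)] at h
      exact eq_neg_of_add_eq_zero_left h
    obtain ⟨σ₀, hσ₀, hσ₀2⟩ := RTCond.exists_inertia_sq hp2 hA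
    have hd0 : (r σ₀).det = 2 := by
      rw [hr, det_torsMat_of_pow hΔ p σ₀ 2 hσ₀2]; norm_num
    have hsmall : ∀ n : ℕ, 0 < n → n < 5 → ((n : ℕ) : ZMod p) ≠ 0 := fun n h0 h5 h => by
      rw [ZMod.natCast_eq_zero_iff] at h
      have := Nat.le_of_dvd h0 h
      omega
    by_cases h0G : σ₀ ∈ G
    · have hout : σ₀ * s ∉ G := by simp [hmulG, h0G, hs]
      have := hdm _ (mul_mem hσ₀ hsI) hout
      rw [map_mul, Matrix.det_mul, hd0, hdm s hsI hs] at this
      exact hsmall 1 one_pos (by norm_num) (by push_cast; linear_combination -this)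
    · have := hdm σ₀ hσ₀ h0G
      rw [hd0] at this
      exact hsmall 3 (by norm_num) (by norm_num) (by push_cast; linear_combination this)
  push Not at hline1
  have hgood : ¬ (p : ℤ) ∣ W.Δ := fun hbad => by
    obtain ⟨L₁, ⟨b, hb⟩, -, hI1, -⟩ :=
      exists_strictOrdinary_line hp2 hΔ hbad (hsemi p hp.out hbad) hA
    obtain ⟨σ, hσ, v, hv⟩ := hline1 (L₁.toAddSubgroup.map (TorsQ W p).subtype.toAddMonoidHom) (b 1)
      (by
        rintro ⟨w, hw, hwe⟩
        have hw' : w = b 1 := Subtype.ext hwe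
        rw [SetLike.mem_coe, Submodule.mem_toAddSubgroup, hb, hw',
          Submodule.mem_span_singleton] at hw
        obtain ⟨t, ht⟩ := hw
        have := congrArg (fun x => b.repr x 1) ht
        simp at this)
    exact hv ⟨σ • v - v, hI1 σ hσ v, rfl⟩
  have hall : ∀ v : TorsQ W p, (v : (WQbar W).toAffine.Point) ∈ oneSubgroup (integralAt W A) := by
    intro v
    by_contra hv
    obtain ⟨σ, hσ, w, hw⟩ := hline1 _ v hv
    exact hw (smul_sub_mem_oneSubgroup hσ (by
      rw [zeroSubgroup_eq_top_of_good hA hp.out hgood]; trivial))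
  -- inertia commutes, so inside `G` it is scalar
  have hscal : ∀ g ∈ A.inertiaSubgroupIn ℚ, g ∈ G → ∃ a : ZMod p, r g = a • (1 : Mat (ZMod p)) := by
    intro g hg hgG
    obtain ⟨m, hm, hγm⟩ := hord (s * g * s⁻¹ * g⁻¹)
    have hone : r (s * g * s⁻¹ * g⁻¹) = 1 := by
      refine (torsMat_eq_one_iff hΔ p _).mpr fun v => ?_
      have hv := (torsMat_eq_one_iff hΔ p ((s * g * s⁻¹ * g⁻¹) ^ m)).mp
        (by rw [map_pow]; exact hγm) v
      rcases hv' : (v : (WQbar W).toAffine.Point) with _ | ⟨x, y, hxy⟩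
      · exact smul_zero' (W := W)
      · rw [hv', smul_some] at hv
        simp only [Affine.Point.some.injEq] at hv
        rw [smul_some]
        simp only [Affine.Point.some.injEq]
        exact ⟨commutator_fix hA hsI hg hm hv.1, commutator_fix hA hsI hg hm hv.2⟩
    have hc : r s * r g = r g * r s := by
      have := congrArg (fun X => X * (r g * r s)) hone
      simp only [one_mul] at this
      rw [← this, ← map_mul, ← map_mul, ← map_mul]
      congr 1
      group
    have hc' : r' s * r' g = r' g * r' s := by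
      rw [← map_mul, ← map_mul, hr', cjHom_apply, cjHom_apply]
      show _ * (r (s * g)).map φ * _ = _ * (r (g * s)).map φ * _
      rw [map_mul, map_mul, hc]
    have hsc := hmon.scalar_of_commute hs hgG hc'
    have hrK' : rK g = r' g 0 0 • (1 : Mat K) := by
      rw [eq_of_cjHom rK P g, ← hr']
      conv_lhs => rw [hsc]
      rw [Matrix.mul_smul, Matrix.smul_mul, mul_one, Units.mul_inv]
    refine ⟨r g 0 0, ?_⟩
    have h00 : φ (r g 0 0) = r' g 0 0 := by simpa [hrK, mapRep_apply] using congrFun (congrFun hrK' 0) 0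
    refine Matrix.map_injective φ.injective ?_
    show rK g = (r g 0 0 • (1 : Mat (ZMod p))).map φ
    rw [hrK']
    ext i j
    simp [Matrix.one_apply, apply_ite φ, h00]
  let T : Finset (Mat (ZMod p)) := (Finset.univ.image fun a : ZMod p => a • (1 : Mat (ZMod p))) ∪
    (Finset.univ.image fun a : ZMod p => a • r s)
  refine not_small_inertia_orbits hΔ p hsemi hp5 hA hall T ?_ fun σ hσ => ?_
  · refine (Finset.card_union_le _ _).trans ?_
    have h1 := Finset.card_image_le (s := (Finset.univ : Finset (ZMod p)))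
      (f := fun a : ZMod p => a • (1 : Mat (ZMod p)))
    have h2 := Finset.card_image_le (s := (Finset.univ : Finset (ZMod p)))
      (f := fun a : ZMod p => a • r s)
    rw [Finset.card_univ, ZMod.card] at h1 h2
    omega
  · by_cases hσG : σ ∈ G
    · obtain ⟨a, ha⟩ := hscal σ hσ hσG
      exact Finset.mem_union_left _ (Finset.mem_image.mpr ⟨a, Finset.mem_univ _, ha.symm⟩)
    · obtain ⟨a, ha⟩ := hscal (σ * s⁻¹) (mul_mem hσ (inv_mem hsI)) (by simp [hmulG, hσG, hs])
      refine Finset.mem_union_right _ (Finset.mem_image.mpr ⟨a, Finset.mem_univ _, ?_⟩)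
      show a • r s = r σ
      rw [← one_mul (r s), ← Matrix.smul_mul, ← ha, ← map_mul, inv_mul_cancel_right]

end FLTAgent.RTIrr
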