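import Fermat.Agent.RT.Irr.Main
import Fermat.Agent.GalRep.Dense
import Mathlib.RingTheory.TensorProduct.Free

/-!
# The Taylor-Wiles hypothesis for semistable `E[p]` and an auxiliary prime for `p = 3`
-/

set_option autoImplicit false
set_option linter.unusedSectionVars false

open scoped WeierstrassCurve.Affine TensorProduct
open WeierstrassCurve FLTAgent.Reduction FLTAgent.Deformation FLTAgent.LevelDrop Matrix Polynomial

namespace FLTAgent.RTIrr

local notation "GQ" => AlgebraicClosure ℚ ≃ₐ[ℚ] AlgebraicClosure ℚ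

/-- Stable submodules of a base change are trivial once the matrices have no stable line. -/
theorem submodule_baseChange_eq_bot_or_top {k : Type} [Field k] (ρbar : ResidualGaloisRep k)
    (b : Module.Basis (Fin 2) k ρbar.V) (K : Type) [Field K] [Algebra k K] (S : Set GQ)
    (h : ¬ HasStableLine (mapRep (algebraMap k K) (repMatrix ρbar.ρ b)) S)
    (V : Submodule K (ρbar.baseChange K).V)
    (hV : ∀ σ ∈ S, ∀ x ∈ V, (ρbar.baseChange K).ρ σ x ∈ V) : V = ⊥ ∨ V = ⊤ := by
  by_contra hc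
  push Not at hc
  obtain ⟨x, hxV, hx0⟩ := V.ne_bot_iff.mp hc.1
  let B : Module.Basis (Fin 2) K (ρbar.baseChange K).V := Algebra.TensorProduct.basis K b
  refine h ⟨B.equivFun x, fun h0 => hx0 (B.equivFun.map_eq_zero_iff.mp h0), fun g hg => ?_⟩
  have hsp : Submodule.span K {x} = V := by
    refine Submodule.eq_of_le_of_finrank_le ((Submodule.span_singleton_le_iff_mem _ _).mpr hxV) ?_
    rw [finrank_span_singleton hx0]
    have := Submodule.finrank_lt hc.2
    rw [(ρbar.baseChange K).finrank_eq] at this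
    omega
  obtain ⟨a, ha⟩ := Submodule.mem_span_singleton.mp (hsp.symm ▸ hV g hg x hxV)
  refine ⟨a, ?_⟩
  have e : mapRep (algebraMap k K) (repMatrix ρbar.ρ b) g = repMatrix (ρbar.baseChange K).ρ B g :=
    (LinearMap.toMatrix_baseChange K (ρbar.ρ g) b b).symm
  rw [e, repMatrix_mulVec, ← ha, map_smul]

variable {W : WeierstrassCurve ℤ} (hΔ : W.Δ ≠ 0) (p : ℕ) [hp : Fact p.Prime]

/-- A basis of an equivalent representation with the matrices of `E[p]`. -/
theorem exists_basis_of_isEquiv {k : Type} [Field k] (φ₀ : ZMod p →+* k)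
    (ρbar : ResidualGaloisRep k) (he : ρbar.IsEquiv ((torsRep hΔ p).baseChangeAlong φ₀)) :
    ∃ b : Module.Basis (Fin 2) k ρbar.V, ∀ σ, repMatrix ρbar.ρ b σ = (torsMat hΔ p σ).map φ₀ := by
  let := φ₀.toAlgebra
  obtain ⟨e⟩ := he
  let B : Module.Basis (Fin 2) k ((torsRep hΔ p).baseChangeAlong φ₀).V :=
    Algebra.TensorProduct.basis k (torsBasis hΔ p)
  refine ⟨B.map e.toLinearEquiv.symm, fun σ => ?_⟩
  have h1 : LinearMap.toMatrix B B (((torsRep hΔ p).baseChangeAlong φ₀).ρ σ) =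
      (torsMat hΔ p σ).map φ₀ :=
    LinearMap.toMatrix_baseChange k ((torsRep hΔ p).ρ σ) (torsBasis hΔ p) (torsBasis hΔ p)
  rw [← h1, repMatrix_apply]
  ext i j
  simp only [LinearMap.toMatrix_apply, Module.Basis.map_apply, Module.Basis.map_repr,
    LinearEquiv.trans_apply, LinearEquiv.symm_symm]
  rw [e.map_apply, LinearEquiv.apply_symm_apply]

/-- Semistable irreducible `E[p]` satisfies the Taylor-Wiles hypothesis of the residual
representation. -/
theorem baseChange_eq_bot_or_top_index_two (hsemi : W.IsSemistableModel) (hp2 : p ≠ 2)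
    (hirr : W.ModRepIsIrreducible p) {k : Type} [Field k] (φ₀ : ZMod p →+* k)
    (ρbar : ResidualGaloisRep k) (he : ρbar.IsEquiv ((torsRep hΔ p).baseChangeAlong φ₀))
    (K : Type) [Field K] [Algebra k K] (G : Subgroup GQ) (hG : G.index = 2)
    (V : Submodule K (ρbar.baseChange K).V)
    (hV : ∀ σ ∈ G, ∀ x ∈ V, (ρbar.baseChange K).ρ σ x ∈ V) : V = ⊥ ∨ V = ⊤ := by
  obtain ⟨b, hb⟩ := exists_basis_of_isEquiv hΔ p φ₀ ρbar he
  refine submodule_baseChange_eq_bot_or_top ρbar b K (G : Set GQ) ?_ V hV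
  have : mapRep (algebraMap k K) (repMatrix ρbar.ρ b) =
      mapRep ((algebraMap k K).comp φ₀) (torsMat hΔ p) := by
    refine MonoidHom.ext fun σ => ?_
    rw [mapRep_apply, hb σ, Matrix.map_map]
    rfl
  rw [this]
  exact not_hasStableLine_index_two hΔ p _ hsemi hp2 hirr G hG

theorem isAbsolutelyIrreducible_of_isEquiv (hp2 : p ≠ 2) (hirr : W.ModRepIsIrreducible p)
    {k : Type} [Field k] (φ₀ : ZMod p →+* k) (ρbar : ResidualGaloisRep k)
    (he : ρbar.IsEquiv ((torsRep hΔ p).baseChangeAlong φ₀)) : ρbar.IsAbsolutelyIrreducible := by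
  obtain ⟨b, hb⟩ := exists_basis_of_isEquiv hΔ p φ₀ ρbar he
  intro V hV
  refine submodule_baseChange_eq_bot_or_top ρbar b (AlgebraicClosure k) Set.univ ?_ V
    fun σ _ => hV σ
  have : mapRep (algebraMap k (AlgebraicClosure k)) (repMatrix ρbar.ρ b) =
      mapRep ((algebraMap k (AlgebraicClosure k)).comp φ₀) (torsMat hΔ p) := by
    refine MonoidHom.ext fun σ => ?_
    rw [mapRep_apply, hb σ, Matrix.map_map]
    rfl
  rw [this]
  exact not_hasStableLine_map hΔ p _ hp2 hirr

/-- Some element with determinant `-1` has nonzero trace. -/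
theorem exists_det_neg_one_trace_ne_zero (hsemi : W.IsSemistableModel) (hp2 : p ≠ 2)
    (hirr : W.ModRepIsIrreducible p) (hpm : ∀ u : ZMod p, u ≠ 0 → u = 1 ∨ u = -1) :
    ∃ σ : GQ, (torsMat hΔ p σ).det = -1 ∧ (torsMat hΔ p σ).trace ≠ 0 := by
  by_contra hc
  push Not at hc
  set r := torsMat hΔ p with hr
  set c := (complexConjugation : GQ)
  obtain ⟨hc1, hc2, -⟩ := torsMat_conj_props hΔ p hp2
  have hunit : ∀ σ, (r σ).det = 1 ∨ (r σ).det = -1 := fun σ => hpm _ fun h0 => by
    obtain ⟨N, hN, hσN⟩ := exists_pow_eq_one hΔ p σ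
    have := congrArg Matrix.det hσN
    rw [Matrix.det_pow, h0, zero_pow hN.ne', Matrix.det_one] at this
    exact zero_ne_one this
  have hne : (-1 : ZMod p) ≠ 1 := fun h => by
    have h2 : ((2 : ℕ) : ZMod p) = 0 := by push_cast; linear_combination -h
    rw [ZMod.natCast_eq_zero_iff] at h2
    exact hp2 ((Nat.prime_dvd_prime_iff_eq hp.out Nat.prime_two).mp h2)
  let G : Subgroup GQ :=
    ((Matrix.detMonoidHom.comp r).toHomUnits).ker
  have hmem : ∀ σ, σ ∈ G ↔ (r σ).det = 1 := fun σ => by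
    simp [G, MonoidHom.mem_ker, Units.ext_iff]
  have hG : G.index = 2 := by
    refine Subgroup.index_eq_two_iff.mpr ⟨c, fun σ => ?_⟩
    rw [hmem, hmem, map_mul, Matrix.det_mul, hr, hc2]
    rcases hunit σ with h | h <;> rw [hr] at h <;> rw [h] <;> simp [Xor, hne, hne.symm]
  have hinv : ∀ g ∈ G, r c * r g * r c * r g = 1 := fun g hg => by
    have hd : (r (c * g)).det = -1 := by rw [map_mul, Matrix.det_mul, hr, hc2, ← hr, (hmem g).mp hg, mul_one]
    have ht := hc _ hd
    rw [mul_assoc, ← map_mul]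
    generalize r (c * g) = M at hd ht ⊢
    rw [Matrix.det_fin_two] at hd
    rw [Matrix.trace_fin_two] at ht
    ext i j
    fin_cases i <;> fin_cases j <;> simp [Matrix.mul_apply, Fin.sum_univ_two]
    · linear_combination -hd + (M 0 0) * ht
    · linear_combination (M 0 1) * ht
    · linear_combination (M 1 0) * ht
    · linear_combination -hd + (M 1 1) * ht
  have hcomm : ∀ g ∈ G, ∀ h ∈ G, r g * r h = r h * r g := by
    intro g hg h hh
    have key : ∀ x ∈ G, r (x⁻¹) = r c * r x * r c := fun x hx => by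
      calc r x⁻¹ = (r c * r x * r c * r x) * r x⁻¹ := by rw [hinv x hx, one_mul]
        _ = r c * r x * r c := by rw [mul_assoc, ← map_mul r x, mul_inv_cancel, map_one, mul_one]
    have e1 : r (h⁻¹ * g⁻¹) = r (g⁻¹ * h⁻¹) := by
      calc r (h⁻¹ * g⁻¹) = r (g * h)⁻¹ := by rw [_root_.mul_inv_rev]
        _ = r c * r (g * h) * r c := key _ (mul_mem hg hh)
        _ = (r c * r g * r c) * (r c * r h * r c) := by
          rw [map_mul]
          simp only [mul_assoc]
          rw [← mul_assoc (r c) (r c), hr, hc1, one_mul]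
        _ = r (g⁻¹ * h⁻¹) := by rw [← key g hg, ← key h hh, map_mul]
    have e2 := congrArg (fun X => r (g * h) * X * r (h * g)) e1
    simp only [← map_mul] at e2
    simp only [← map_mul]
    convert e2.symm using 2 <;> group
  let K := AlgebraicClosure (ZMod p)
  let φ : ZMod p →+* K := algebraMap _ K
  refine not_hasStableLine_index_two hΔ p φ hsemi hp2 hirr G hG ?_
  by_cases hscal : ∀ g ∈ G, ∃ a : K, (r g).map φ = a • (1 : Mat K)
  · exact ⟨Pi.single 0 1, by simp, fun g hg => by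
      obtain ⟨a, ha⟩ := hscal g hg
      exact ⟨a, by rw [mapRep_apply, ha, Matrix.smul_mulVec, Matrix.one_mulVec]⟩⟩
  push Not at hscal
  obtain ⟨g, hgG, hg⟩ := hscal
  set M := (r g).map φ with hM
  obtain ⟨a, ha⟩ := IsAlgClosed.exists_root M.charpoly (by
    rw [Matrix.charpoly_degree_eq_dim]; simp)
  have hdet : (M - a • (1 : Mat K)).det = 0 := by
    rw [Polynomial.IsRoot, Matrix.eval_charpoly] at ha
    rw [show M - a • (1 : Mat K) = -(Matrix.scalar (Fin 2) a - M) by
      rw [neg_sub, Matrix.smul_one_eq_diagonal]; rfl, Matrix.det_neg, ha, mul_zero]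
  obtain ⟨v, hv, hv0⟩ := Matrix.exists_mulVec_eq_zero_iff.mpr hdet
  refine ⟨v, hv, fun h hh => ?_⟩
  refine exists_smul_of_mulVec_eq_zero (N := M - a • (1 : Mat K))
    (fun h0 => hg a (sub_eq_zero.mp h0)) ?_ hv0 hv
  have hco : (M - a • (1 : Mat K)) * (mapRep φ r h) = (mapRep φ r h) * (M - a • (1 : Mat K)) := by
    rw [sub_mul, mul_sub, Matrix.smul_mul, one_mul, Matrix.mul_smul, mul_one, hM, mapRep_apply,
      ← Matrix.map_mul, hcomm g hgG h hh, Matrix.map_mul]
  rw [Matrix.mulVec_mulVec, hco, ← Matrix.mulVec_mulVec, hv0, Matrix.mulVec_zero]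

/-- For a semistable curve with irreducible `E[3]`, there is a good prime `r ≡ 2 (mod 3)` outside a
given finite set with `a_r` prime to `3`. -/
theorem exists_auxiliary_prime_three {W : WeierstrassCurve ℤ} (hΔ : W.Δ ≠ 0)
    (hsemi : W.IsSemistableModel) (hirr : W.ModRepIsIrreducible 3) (S : Finset ℕ) :
    ∃ r : ℕ, r.Prime ∧ r ∉ S ∧ W.IsGoodPrimeFor r ∧ r % 3 = 2 ∧
      ¬ (3 : ℤ) ∣ W.apOfModel r := by
  haveI : Fact (Nat.Prime 3) := ⟨Nat.prime_three⟩
  obtain ⟨g, hdet, htr⟩ := exists_det_neg_one_trace_ne_zero hΔ 3 hsemi (by norm_num) hirr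
    (fun u hu => by revert u; clear hirr hsemi hΔ; decide +revert)
  obtain ⟨L, hL, hLfix⟩ := (torsRep hΔ 3).factorsThroughFiniteLevel
  obtain ⟨r, hr, hrS, A, hA, σ, hσ, hσg⟩ :=
    FLTAgent.GalRep.frobeniusDense L hL g (S ∪ W.Δ.natAbs.primeFactors ∪ {3})
  simp only [Finset.mem_union, Finset.mem_singleton, Nat.mem_primeFactors, not_or, not_and,
    ne_eq] at hrS
  have hgood : W.IsGoodPrimeFor r := fun h =>
    hrS.1.2 hr (Int.ofNat_dvd_left.mp h) (Int.natAbs_ne_zero.mpr hΔ)
  have hM : torsMat hΔ 3 σ = torsMat hΔ 3 g := by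
    have h1 : torsMat hΔ 3 (g⁻¹ * σ) = 1 := by
      rw [torsMat_eq, hLfix _ (FLTAgent.GalRep.fixing_of_agree hσg).1, LinearMap.toMatrix_one]
    calc torsMat hΔ 3 σ = torsMat hΔ 3 (g * (g⁻¹ * σ)) := by rw [mul_inv_cancel_left]
      _ = torsMat hΔ 3 g := by rw [map_mul, h1, mul_one]
  have hcp := charpoly_torsRep_frobenius hΔ 3 hr hgood hrS.2 A hA σ hσ
  have hcp' : (torsMat hΔ 3 σ).charpoly =
      X ^ 2 - C (W.apOfModel r : ZMod 3) * X + C (r : ZMod 3) := by
    rw [torsMat_eq, LinearMap.charpoly_toMatrix]; exact hcp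
  rw [hM] at hcp'
  have h0 := congrArg (fun P => Polynomial.coeff P 0) hcp'
  have h1 := congrArg (fun P => Polynomial.coeff P 1) hcp'
  simp [Polynomial.coeff_X_pow] at h0 h1
  have htr' : (torsMat hΔ 3 g).trace = (W.apOfModel r : ZMod 3) := by
    rw [Matrix.trace_eq_neg_charpoly_coeff, Fintype.card_fin, h1, neg_neg]
  have hdet' : (torsMat hΔ 3 g).det = (r : ZMod 3) := by
    rw [Matrix.det_eq_sign_charpoly_coeff, Fintype.card_fin, h0]; simp
  refine ⟨r, hr, hrS.1.1, hgood, ?_, fun h => htr ?_⟩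
  · have h2 : (r : ZMod 3) = ((2 : ℕ) : ZMod 3) := by rw [← hdet', hdet]; rfl
    rw [ZMod.natCast_eq_natCast_iff'] at h2
    omega
  · rw [htr', ZMod.intCast_zmod_eq_zero_iff_dvd]
    exact_mod_cast h

end FLTAgent.RTIrr
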