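import Fermat.Agent.Reduction.Inertia
import Fermat.Agent.GalRep.Cyclo

/-!
# Commutators of inertia fix everything they move with period prime to the residue characteristic
-/

set_option autoImplicit false

namespace FLTAgent.RTIrr

open FLTAgent.Reduction

local notation "Qb" => AlgebraicClosure ℚ
local notation "GQ" => AlgebraicClosure ℚ ≃ₐ[ℚ] AlgebraicClosure ℚ

variable {A : ValuationSubring Qb}

theorem v_apply {σ : GQ} (hσ : σ ∈ A.inertiaSubgroupIn ℚ) (x : Qb) :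
    A.valuation (σ x) = A.valuation x :=
  v_map_eq_qbar (inertia_le_decomposition hσ) x

open Classical in
/-- The commutator moves every element by less than its size. -/
theorem v_commutator_sub_lt {σ τ : GQ} (hσ : σ ∈ A.inertiaSubgroupIn ℚ)
    (hτ : τ ∈ A.inertiaSubgroupIn ℚ) {z : Qb} (hz : z ≠ 0) :
    A.valuation ((σ * τ * σ⁻¹ * τ⁻¹) z - z) < A.valuation z := by
  have hI : ∀ {g : GQ}, g ∈ A.inertiaSubgroupIn ℚ → g⁻¹ ∈ A.inertiaSubgroupIn ℚ := fun h => inv_mem h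
  have hunit : ∀ {g : GQ}, g ∈ A.inertiaSubgroupIn ℚ → ∀ {w : Qb}, w ≠ 0 → g w / w ∈ A := by
    intro g hg w hw
    rw [← A.valuation_le_one_iff, map_div₀, v_apply hg, div_self ((map_ne_zero _).mpr hw)]
  let θ : GQ → IsLocalRing.ResidueField A := fun g =>
    if hg : g z / z ∈ A then IsLocalRing.residue A ⟨g z / z, hg⟩ else 0
  have hθ : ∀ {g : GQ} (hg : g ∈ A.inertiaSubgroupIn ℚ),
      θ g = IsLocalRing.residue A ⟨g z / z, hunit hg hz⟩ := fun hg => dif_pos (hunit hg hz)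
  have hmul : ∀ (g g' : GQ), g ∈ A.inertiaSubgroupIn ℚ → g' ∈ A.inertiaSubgroupIn ℚ →
      θ (g * g') = θ g * θ g' := by
    intro g g' hg hg'
    have hmem : g (g' z / z) ∈ A := by
      rw [← A.valuation_le_one_iff, v_apply hg]
      exact (A.valuation_le_one_iff _).mpr (hunit hg' hz)
    have h1 : IsLocalRing.residue A (⟨g (g' z / z), hmem⟩ : A) =
        IsLocalRing.residue A ⟨g' z / z, hunit hg' hz⟩ :=
      residue_map_eq hg (a := ⟨g' z / z, hunit hg' hz⟩) hmem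
    rw [hθ (mul_mem hg hg'), hθ hg, hθ hg', ← h1, mul_comm (IsLocalRing.residue A _), ← map_mul]
    refine congrArg _ (Subtype.ext ?_)
    show (g * g') z / z = g (g' z / z) * (g z / z)
    rw [AlgEquiv.mul_apply, map_div₀, div_mul_div_cancel₀ (by simpa using hz)]
  have hone : θ 1 = 1 := by
    rw [hθ (one_mem _), ← map_one (IsLocalRing.residue A)]
    exact congrArg _ (Subtype.ext (by simp [hz]))
  have hinv : ∀ g : GQ, g ∈ A.inertiaSubgroupIn ℚ → θ g * θ g⁻¹ = 1 := by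
    intro g hg
    rw [← hmul _ _ hg (hI hg), mul_inv_cancel, hone]
  have hγI := mul_mem (mul_mem (mul_mem hσ hτ) (hI hσ)) (hI hτ)
  have hγ : θ (σ * τ * σ⁻¹ * τ⁻¹) = 1 := by
    rw [hmul _ τ⁻¹ (mul_mem (mul_mem hσ hτ) (hI hσ)) (hI hτ),
      hmul _ σ⁻¹ (mul_mem hσ hτ) (hI hσ), hmul σ τ hσ hτ]
    calc θ σ * θ τ * θ σ⁻¹ * θ τ⁻¹ = θ σ * θ σ⁻¹ * (θ τ * θ τ⁻¹) := by ring
      _ = 1 := by rw [hinv σ hσ, hinv τ hτ, mul_one]
  rw [hθ hγI] at hγ
  have h := (sub_eq_zero.mpr hγ)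
  rw [← map_one (IsLocalRing.residue A), ← map_sub, IsLocalRing.residue_eq_zero_iff,
    A.valuation_lt_one_iff] at h
  have h' : A.valuation ((σ * τ * σ⁻¹ * τ⁻¹) z / z - 1) < 1 := h
  rwa [div_sub_one hz, map_div₀, div_lt_one₀ (zero_lt_iff.mpr ((map_ne_zero _).mpr hz))] at h'

/-- A commutator of inertia whose period on `z` is prime to `p` fixes `z`. -/
theorem commutator_fix {p : ℕ} (hA : A.LiesOverPrime p) {σ τ : GQ}
    (hσ : σ ∈ A.inertiaSubgroupIn ℚ) (hτ : τ ∈ A.inertiaSubgroupIn ℚ) {z : Qb} {m : ℕ}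
    (hm : m.Coprime p) (h : ((σ * τ * σ⁻¹ * τ⁻¹) ^ m) z = z) :
    (σ * τ * σ⁻¹ * τ⁻¹) z = z := by
  have hstep : ∀ {w : Qb}, w ≠ 0 →
      A.valuation ((σ * τ * σ⁻¹ * τ⁻¹) w - w) < A.valuation w :=
    fun hw => v_commutator_sub_lt hσ hτ hw
  have hγI : σ * τ * σ⁻¹ * τ⁻¹ ∈ A.inertiaSubgroupIn ℚ :=
    mul_mem (mul_mem (mul_mem hσ hτ) (inv_mem hσ)) (inv_mem hτ)
  generalize σ * τ * σ⁻¹ * τ⁻¹ = γ at h hstep hγI ⊢
  by_contra hne
  obtain ⟨y, hy⟩ : ∃ y, y = γ z - z := ⟨_, rfl⟩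
  have hy0 : y ≠ 0 := hy ▸ sub_ne_zero.mpr hne
  have hsum : ∑ i ∈ Finset.range m, (γ ^ i) y = 0 := by
    have e : ∀ i, (γ ^ i) y = (γ ^ (i + 1)) z - (γ ^ i) z := fun i => by
      rw [hy, map_sub, pow_succ, AlgEquiv.mul_apply]
    rw [Finset.sum_congr rfl fun i _ => e i, Finset.sum_range_sub fun i => (γ ^ i) z, h]
    simp
  have hsmall : ∀ i, A.valuation ((γ ^ i) y - y) < A.valuation y := by
    intro i
    induction i with
    | zero => simpa using zero_lt_iff.mpr ((map_ne_zero _).mpr hy0)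
    | succ i ih =>
      rw [pow_succ', AlgEquiv.mul_apply,
        show γ ((γ ^ i) y) - y = γ ((γ ^ i) y - y) + (γ y - y) by rw [map_sub]; ring]
      refine (A.valuation.map_add _ _).trans_lt (max_lt ?_ (hstep hy0))
      rw [v_apply hγI]; exact ih
  have hm1 : A.valuation (m : Qb) = 1 := by
    refine le_antisymm ((A.valuation_le_one_iff _).mpr (natCast_mem A m)) (not_lt.mp fun hlt => ?_)
    exact GalRep.natCast_notMem_nonunits hA hm hlt
  have key : (m : Qb) * y = -∑ i ∈ Finset.range m, ((γ ^ i) y - y) := by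
    rw [Finset.sum_sub_distrib, hsum, zero_sub, neg_neg, Finset.sum_const, Finset.card_range,
      nsmul_eq_mul]
  have : A.valuation ((m : Qb) * y) < A.valuation y := by
    rw [key, Valuation.map_neg]
    exact A.valuation.map_sum_lt' (zero_lt_iff.mpr ((map_ne_zero _).mpr hy0)) fun i _ => hsmall i
  rw [map_mul, hm1, one_mul] at this
  exact this.false

end FLTAgent.RTIrr
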