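import Fermat.Agent.LevelDrop.Residual
import Fermat.Agent.Deformation.MatRep
import Fermat.Agent.Reduction.AtP
import Fermat.Agent.Reduction.Peu.TorsionSize
import Fermat.Agent.Reduction.Peu.InertiaField
import Fermat.Agent.RT.Cond.InertiaCyclo
import Fermat.Agent.RT.Irr.Tame

/-!
# The matrices of `E[p]` on inertia
-/

set_option autoImplicit false
set_option linter.unusedSectionVars false

open scoped WeierstrassCurve.Affine
open WeierstrassCurve FLTAgent.Reduction FLTAgent.Deformation FLTAgent.LevelDrop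

namespace FLTAgent.RTIrr

local notation "Qb" => AlgebraicClosure ℚ
local notation "GQ" => AlgebraicClosure ℚ ≃ₐ[ℚ] AlgebraicClosure ℚ

theorem trace_eq_two_of_sub_one_mul_self {K : Type*} [Field K] {M : Matrix (Fin 2) (Fin 2) K}
    (h : (M - 1) * (M - 1) = 0) : M.trace = 2 ∧ M.det = 1 := by
  have h00 := congrFun (congrFun h 0) 0
  have h01 := congrFun (congrFun h 0) 1
  have h10 := congrFun (congrFun h 1) 0
  have h11 := congrFun (congrFun h 1) 1
  simp [Matrix.mul_apply, Fin.sum_univ_two] at h00 h01 h10 h11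
  rw [Matrix.trace_fin_two, Matrix.det_fin_two]
  have hs : M 0 0 + M 1 1 = 2 := by
    by_contra hne
    have hne' : M 0 0 + M 1 1 - 2 ≠ 0 := sub_ne_zero.mpr hne
    have hb : M 0 1 = 0 := (mul_eq_zero.mp (show M 0 1 * (M 0 0 + M 1 1 - 2) = 0 by
      linear_combination h01)).resolve_right hne'
    have ha : M 0 0 - 1 = 0 := mul_self_eq_zero.mp (by rw [hb] at h00; linear_combination h00)
    have hd : M 1 1 - 1 = 0 := mul_self_eq_zero.mp (by rw [hb] at h11; linear_combination h11)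
    exact hne (by linear_combination ha + hd)
  exact ⟨hs, by linear_combination -h00 + (M 0 0) * hs⟩

variable {W : WeierstrassCurve ℤ} (hΔ : W.Δ ≠ 0) (p : ℕ) [hp : Fact p.Prime]

/-- A basis of `E[p]`. -/
noncomputable def torsBasis : Module.Basis (Fin 2) (ZMod p) (torsRep hΔ p).V :=
  Module.finBasisOfFinrankEq _ _ (torsRep hΔ p).finrank_eq

/-- The matrices of `E[p]`. -/
noncomputable def torsMat : GQ →* Mat (ZMod p) := repMatrix (torsRep hΔ p).ρ (torsBasis hΔ p)

theorem torsMat_eq (σ : GQ) :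
    torsMat hΔ p σ = LinearMap.toMatrix (torsBasis hΔ p) (torsBasis hΔ p) ((torsRep hΔ p).ρ σ) := rfl

theorem coe_torsRep_apply (σ : GQ) (v : TorsQ W p) :
    (((show TorsQ W p from (torsRep hΔ p).ρ σ v) : TorsQ W p) : (WQbar W).toAffine.Point) =
      σ • (v : (WQbar W).toAffine.Point) := rfl

theorem torsMat_eq_one_iff (σ : GQ) :
    torsMat hΔ p σ = 1 ↔ ∀ v : TorsQ W p, σ • (v : (WQbar W).toAffine.Point) = v := by
  rw [torsMat_eq, ← LinearMap.toMatrix_one (torsBasis hΔ p),
    (LinearMap.toMatrix _ _).injective.eq_iff]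
  exact ⟨fun h v => congrArg Subtype.val (LinearMap.congr_fun h v),
    fun h => LinearMap.ext fun v => Subtype.ext (h (show TorsQ W p from v))⟩

/-- A relation on points gives a matrix relation. -/
theorem torsMat_sub_one_sq {σ : GQ}
    (h : ∀ v : TorsQ W p, σ • (σ • (v : (WQbar W).toAffine.Point) - v) = σ • (v : (WQbar W).toAffine.Point) - v) :
    (torsMat hΔ p σ - 1) * (torsMat hΔ p σ - 1) = 0 := by
  rw [torsMat_eq, ← LinearMap.toMatrix_one (torsBasis hΔ p), ← map_sub, ← LinearMap.toMatrix_mul,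
    map_eq_zero_iff _ (LinearMap.toMatrix _ _).injective]
  refine LinearMap.ext fun v => Subtype.ext ?_
  obtain ⟨w, hw⟩ : ∃ w : TorsQ W p, w = v := ⟨v, rfl⟩
  subst hw
  show σ • (σ • (w : (WQbar W).toAffine.Point) - w) - (σ • (w : (WQbar W).toAffine.Point) - w) = 0
  rw [h, sub_self]

theorem unipotent_inertia_ne (hsemi : W.IsSemistableModel) {l : ℕ} (hl : l.Prime) (hlp : l ≠ p)
    {A : ValuationSubring Qb} (hA : A.LiesOverPrime l) {σ : GQ}
    (hσ : σ ∈ A.inertiaSubgroupIn ℚ) :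
    (torsMat hΔ p σ).trace = 2 ∧ (torsMat hΔ p σ).det = 1 := by
  refine trace_eq_two_of_sub_one_mul_self (torsMat_sub_one_sq hΔ p fun v => ?_)
  have hlp' : ¬ l ∣ p := fun h => hlp ((Nat.prime_dvd_prime_iff_eq hl hp.out).mp h)
  by_cases hbad : (l : ℤ) ∣ W.Δ
  · exact inertia_unipotent hA hl hΔ hbad (hsemi l hl hbad) hlp' hσ (nsmul_coe_torsionBy v)
  · have h0 := smul_eq_of_mem_zeroSubgroup (W := W) hA hl hlp' hσ
      (P := (v : (WQbar W).toAffine.Point)) (by
        rw [zeroSubgroup_eq_top_of_good hA hl hbad]; trivial) (nsmul_coe_torsionBy v)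
    rw [h0, sub_self]
    exact smul_zero' (W := W)

theorem det_torsMat_of_pow (σ : GQ) (a : ℕ) (ha : ∀ μ : Qb, μ ^ p = 1 → σ μ = μ ^ a) :
    (torsMat hΔ p σ).det = (a : ZMod p) := by
  have := isElliptic_rat_of_ne_zero hΔ
  have := FLTAgent.WeilPairing.isElliptic_qbar (W.map (Int.castRingHom ℚ))
  have h := FLTAgent.WeilPairing.det_galoisRepModuleEnd_eq_of_forall_pow
    (W.map (Int.castRingHom ℚ)).toAffine p (Nat.cast_ne_zero.mpr hp.out.ne_zero) σ a ha
  rw [torsMat_eq, LinearMap.det_toMatrix]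
  exact h

/-- A proper subgroup receiving all `σ v - v` forces the eigenvalue `1`. -/
theorem trace_eq_det_add_one {σ : GQ} (L : AddSubgroup (WQbar W).toAffine.Point) (v₀ : TorsQ W p)
    (hv₀ : (v₀ : (WQbar W).toAffine.Point) ∉ L)
    (h : ∀ v : TorsQ W p, σ • (v : (WQbar W).toAffine.Point) - v ∈ L) :
    (torsMat hΔ p σ).trace = (torsMat hΔ p σ).det + 1 := by
  have hdet : (torsMat hΔ p σ - 1).det = 0 := by
    rw [torsMat_eq, ← LinearMap.toMatrix_one (torsBasis hΔ p), ← map_sub, LinearMap.det_toMatrix]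
    by_contra hne
    obtain ⟨w, hw⟩ := (Module.End.isUnit_iff _).mp
      ((LinearMap.isUnit_iff_isUnit_det _).mpr (IsUnit.mk0 _ hne)) |>.2 v₀
    exact hv₀ (by rw [← hw]; exact h w)
  rw [Matrix.det_fin_two] at hdet ⊢
  simp at hdet
  rw [Matrix.trace_fin_two]
  linear_combination -hdet

variable (hsemi : W.IsSemistableModel)

include hsemi in
/-- If no point of order `p` survives reduction then inertia at `p` moves the `x`-coordinates in
orbits of more than `2 p` elements. -/
theorem not_small_inertia_orbits (hp5 : 5 ≤ p) {A : ValuationSubring Qb} (hA : A.LiesOverPrime p)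
    (hall : ∀ v : TorsQ W p, (v : (WQbar W).toAffine.Point) ∈ oneSubgroup (integralAt W A))
    (T : Finset (Mat (ZMod p))) (hT : T.card ≤ 2 * p)
    (hIT : ∀ σ ∈ A.inertiaSubgroupIn ℚ, torsMat hΔ p σ ∈ T) : False := by
  classical
  have h2 : p ≠ 2 := by omega
  have := isElliptic_WQbar hΔ
  have : (W.map (Int.castRingHom ℚ)).IsElliptic := isElliptic_rat_of_ne_zero hΔ
  have hW := integralAt W A
  have hcard : Nat.card (TorsQ W p) = p ^ 2 :=
    Torsion.natCard_torsionBy_qbar (W.map (Int.castRingHom ℚ)) hp.out.ne_zero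
  have hfin : Finite (TorsQ W p) :=
    Nat.finite_of_card_ne_zero (by rw [hcard]; exact pow_ne_zero 2 hp.out.ne_zero)
  let _ := Fintype.ofFinite (TorsQ W p)
  let xc : TorsQ W p → Qb := fun v =>
    match (v : (WQbar W).toAffine.Point) with
    | .zero => 0
    | .some x _ _ => x
  have hsome : ∀ v : TorsQ W p, v ≠ 0 → ∃ y h, (v : (WQbar W).toAffine.Point) = .some (xc v) y h ∧
      xc v ∉ A ∧ (((intCurve hW).preΨ' p).map A.subtype).eval (xc v) = 0 := by
    intro v hv
    rcases hv' : (v : (WQbar W).toAffine.Point) with _ | ⟨x, y, h⟩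
    · exact absurd (Subtype.ext hv') hv
    have hx : xc v = x := by simp only [xc, hv']
    subst hx
    refine ⟨y, h, rfl, ?_, ?_⟩
    · have := hall v; rw [hv'] at this; exact this
    · have hpk := nsmul_coe_torsionBy v
      rw [hv', ← natCast_zsmul, Torsion.zsmul_some_eq_zero_iff, ΨSq_ofNat,
        if_neg (Nat.not_even_iff_odd.2 (hp.out.odd_of_ne_two h2)), mul_one, Polynomial.eval_pow,
        pow_eq_zero_iff two_ne_zero] at hpk
      rw [← map_preΨ', intCurve_map]
      exact hpk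
  let nz := Finset.univ.filter fun v : TorsQ W p => v ≠ 0
  have hnzcard : nz.card = p ^ 2 - 1 := by
    rw [← hcard, Nat.card_eq_fintype_card]
    simp [nz, Finset.filter_ne']
  have hfib : ∀ a ∈ nz.image xc, (nz.filter fun v => xc v = a).card ≤ 2 := by
    intro a ha
    obtain ⟨v, hv, rfl⟩ := Finset.mem_image.mp ha
    refine (Finset.card_le_card (t := {v, -v}) fun w hw => ?_).trans (Finset.card_le_two)
    rw [Finset.mem_filter] at hw hv
    obtain ⟨y, h, hv', -⟩ := hsome v (by simpa [nz] using hv.2)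
    obtain ⟨y', h', hw', -⟩ := hsome w (by simpa [nz] using (Finset.mem_filter.mp hw.1).2)
    rw [Finset.mem_insert, Finset.mem_singleton]
    rcases Affine.Y_eq_of_X_eq h'.1 h.1 hw.2 with he | he
    · left; refine Subtype.ext ?_; rw [hv', hw']; simp only [Affine.Point.some.injEq]; exact ⟨hw.2, he⟩
    · right
      refine Subtype.ext ?_
      rw [Submodule.coe_neg, hv', hw', Affine.Point.neg_some]
      simp only [Affine.Point.some.injEq]; exact ⟨hw.2, he⟩
  have hX := Finset.card_le_mul_card_image nz 2 hfib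
  set X := nz.image xc with hXdef
  have hroots : ∀ a ∈ X, (((intCurve hW).preΨ' p).map A.subtype).eval a = 0 ∧ a ∉ A := by
    intro a ha
    obtain ⟨v, hv, rfl⟩ := Finset.mem_image.mp ha
    obtain ⟨_, _, _, h1, h2⟩ := hsome v (Finset.mem_filter.mp hv).2
    exact ⟨h2, h1⟩
  have hne : (redCurve hW).preΨ' p ≠ 0 := preΨ'_redCurve_ne_zero hW (hp.out.odd_of_ne_two h2)
    (Or.inr ⟨residue_two_ne_zero hA hp.out h2, by
      by_cases hbad : (p : ℤ) ∣ W.Δ
      · exact Or.inr (by rw [WQbar_c₄]; exact v_intCast_eq_one hA hp.out (hsemi p hp.out hbad))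
      · exact Or.inl (by rw [WQbar_Δ]; exact v_intCast_eq_one hA hp.out hbad)⟩)
  rw [redCurve, map_preΨ'] at hne
  have hprod := Peu.prod_nonintegral_roots_le (f := (intCurve hW).preΨ' p) hne X hroots
  have hlead : (((intCurve hW).preΨ' p).leadingCoeff : Qb) = (p : Qb) := by
    rw [(intCurve hW).leadingCoeff_preΨ' (fun h => hp.out.ne_zero (Nat.cast_eq_zero.1
      (by simpa using congrArg A.subtype h : (p : Qb) = 0))),
      if_neg (Nat.not_even_iff_odd.2 (hp.out.odd_of_ne_two h2))]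
    simp
  rw [hlead] at hprod
  have hXne : X.Nonempty := by
    rw [← Finset.card_pos]
    have : 0 < p ^ 2 - 1 := Nat.sub_pos_of_lt (Nat.one_lt_pow two_ne_zero hp.out.one_lt)
    omega
  obtain ⟨x, hx, hmin⟩ := Finset.exists_min_image X (fun a => A.valuation a) hXne
  obtain ⟨v, hv, hvx⟩ := Finset.mem_image.mp hx
  obtain ⟨y, h, hv', hxA, -⟩ := hsome v (Finset.mem_filter.mp hv).2
  rw [hvx] at hxA
  -- the orbit
  let O := X.filter fun a => ∃ σ ∈ A.inertiaSubgroupIn ℚ, a = σ x
  have hxσ : ∀ σ : GQ, σ x ∈ X := fun σ => by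
    have hne0 : (torsRep hΔ p).ρ σ v ≠ 0 := fun h0 => (Finset.mem_filter.mp hv).2 (by
      have h1 := congrArg ((torsRep hΔ p).ρ σ⁻¹) h0
      rw [map_zero, ← Module.End.mul_apply, ← map_mul, inv_mul_cancel, map_one] at h1
      exact h1)
    refine Finset.mem_image.mpr ⟨(show TorsQ W p from (torsRep hΔ p).ρ σ v), Finset.mem_filter.mpr ⟨Finset.mem_univ _, hne0⟩, ?_⟩
    have hcoe := coe_torsRep_apply hΔ p σ v
    simp only [xc, hcoe, hv', hvx, smul_some]
  have hOmem : ∀ σ ∈ A.inertiaSubgroupIn ℚ, σ x ∈ O := fun σ hσ =>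
    Finset.mem_filter.mpr ⟨hxσ σ, σ, hσ, rfl⟩
  have hOcard : O.card ≤ 2 * p := by
    refine le_trans ?_ hT
    have hpick : ∀ a : O, ∃ σ : GQ, σ ∈ A.inertiaSubgroupIn ℚ ∧ a.1 = σ x :=
      fun a => (Finset.mem_filter.mp a.2).2
    choose g hg hga using hpick
    rw [← Fintype.card_coe, ← Fintype.card_coe]
    refine Fintype.card_le_of_injective
      (fun a => (⟨torsMat hΔ p (g a), hIT _ (hg a)⟩ : T)) fun a b hab => Subtype.ext ?_
    have h1 : torsMat hΔ p ((g a)⁻¹ * g b) = 1 := by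
      have hab' : torsMat hΔ p (g a) = torsMat hΔ p (g b) := Subtype.ext_iff.mp hab
      rw [map_mul, ← hab', ← map_mul, inv_mul_cancel, map_one]
    have h2 := (torsMat_eq_one_iff hΔ p _).mp h1 v
    rw [hv', smul_some] at h2
    simp only [Affine.Point.some.injEq, AlgEquiv.mul_apply] at h2
    rw [hga, hga]
    have h3 := h2.1
    rw [hvx] at h3
    have := congrArg (g a) h3
    rw [← AlgEquiv.mul_apply, mul_inv_cancel] at this
    exact this.symm
  have hxO : x ∈ O := by simpa using hOmem 1 (one_mem _)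
  have hOX : O.card < X.card := by
    have h1 : 5 * p ≤ p ^ 2 := by rw [pow_two]; exact Nat.mul_le_mul_right p hp5
    omega
  -- the product over the orbit is fixed by inertia
  have hvx1 : 1 < A.valuation x := by
    rw [← not_le]; exact fun h => hxA ((A.valuation_le_one_iff x).mp h)
  have hfix : ∀ τ ∈ A.inertiaSubgroupIn ℚ, τ (∏ a ∈ O, a) = ∏ a ∈ O, a := by
    intro τ hτ
    rw [map_prod]
    refine Finset.prod_nbij (fun a => τ a) ?_ (τ.injective.injOn) ?_ fun a _ => rfl
    · intro a ha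
      obtain ⟨σ, hσ, rfl⟩ := (Finset.mem_filter.mp ha).2
      rw [← AlgEquiv.mul_apply]
      exact hOmem _ (mul_mem hτ hσ)
    · intro a ha
      obtain ⟨σ, hσ, rfl⟩ := (Finset.mem_filter.mp (Finset.mem_coe.mp ha)).2
      refine ⟨τ⁻¹ (σ x), ?_, ?_⟩
      · rw [Finset.mem_coe, ← AlgEquiv.mul_apply]
        exact hOmem _ (mul_mem (inv_mem hτ) hσ)
      · show τ (τ⁻¹ (σ x)) = σ x
        rw [← AlgEquiv.mul_apply, mul_inv_cancel]; rfl
  have hval : A.valuation (∏ a ∈ O, a) = A.valuation x ^ O.card := by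
    rw [map_prod]
    refine Finset.prod_eq_pow_card fun a ha => ?_
    obtain ⟨σ, hσ, rfl⟩ := (Finset.mem_filter.mp ha).2
    exact v_apply hσ x
  have hz0 : (∏ a ∈ O, a) ≠ 0 := fun h0 => by
    rw [h0, map_zero] at hval
    exact (ne_of_gt (pow_pos (lt_trans zero_lt_one hvx1) _)) hval.symm
  obtain ⟨k, hk⟩ := Peu.valuation_eq_zpow_of_fixed hp.out hA hz0 hfix
  have hv0 : 0 < A.valuation (p : Qb) :=
    zero_lt_iff.mpr ((map_ne_zero _).mpr (Nat.cast_ne_zero.mpr hp.out.ne_zero))
  have hv1 : A.valuation (p : Qb) < 1 := hA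
  have hk1 : k ≤ -1 := by
    by_contra hc
    have h1 : A.valuation (p : Qb) ^ k ≤ 1 := zpow_le_one₀ hv0 hv1.le (by omega : 0 ≤ k)
    rw [← hk, hval] at h1
    exact absurd h1 (not_le.mpr (one_lt_pow₀ hvx1 (Finset.card_ne_zero.mpr ⟨x, hxO⟩)))
  have hlow : 1 ≤ A.valuation (p : Qb) * A.valuation x ^ O.card := by
    rw [← hval, hk]
    calc (1 : A.ValueGroup) = A.valuation (p : Qb) * A.valuation (p : Qb) ^ (-1 : ℤ) := by
          rw [zpow_neg_one, mul_inv_cancel₀ hv0.ne']
      _ ≤ _ := mul_le_mul' le_rfl (zpow_le_zpow_right_of_le_one₀ hv0 hv1.le hk1)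
  have hhigh : A.valuation (p : Qb) * A.valuation x ^ X.card ≤ 1 :=
    le_trans (mul_le_mul' le_rfl (Finset.pow_card_le_prod _ _ _ hmin)) hprod
  have hlt : A.valuation (p : Qb) * A.valuation x ^ O.card <
      A.valuation (p : Qb) * A.valuation x ^ X.card :=
    mul_lt_mul_of_pos_left (pow_lt_pow_right₀ hvx1 hOX) hv0
  exact absurd (hlow.trans_lt hlt) (not_lt.mpr hhigh)

end FLTAgent.RTIrr
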